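import Fermat.Agent.CFT.Flat.Lattice
import Fermat.Agent.CFT.Flat.Inertia

/-!
# Connected points fixed by inertia modulo a stable subgroup

A point of the connected part of a Galois order killed by an odd `p`, whose coset modulo a
subgroup stable under inertia is fixed by inertia, lies in the subgroup.
-/

set_option autoImplicit false

noncomputable section

namespace Fermat.Agent.CFT.Flat

open Fermat.Agent.Arith Fermat.Agent.FiniteFlat AddMonoidAlgebra

variable (p : ℕ) [hp : Fact p.Prime]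

/-- Coordinates of bounded representatives modulo a subspace. -/
theorem exists_reduction {ι : Type} [Fintype ι] (s : Finset ι) :
    ∀ K : Submodule QBar (ι → QBar), (∀ y ∈ K, ∀ i, i ∉ s → y i = 0) →
      ∃ P : Finset ι, P ⊆ s ∧ (∀ y ∈ K, (∀ i ∈ P, y i = 0) → y = 0) ∧
        ∀ v : ι → QBar, ∀ r : ℝ, (∀ i, nrm p (v i) ≤ r) →
          ∃ v' : ι → QBar, v - v' ∈ K ∧ (∀ i ∈ P, v' i = 0) ∧ ∀ i, nrm p (v' i) ≤ r := by
  classical
  induction s using Finset.strongInduction with
  | H s ih =>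
    intro K hK
    rcases eq_or_ne K ⊥ with rfl | hne
    · exact ⟨∅, Finset.empty_subset s, fun y hy _ => (Submodule.mem_bot QBar).mp hy,
        fun v r hv => ⟨v, by simp, by simp, hv⟩⟩
    obtain ⟨x₀, hx₀, hx₀ne⟩ := Submodule.exists_mem_ne_zero_of_ne_bot hne
    obtain ⟨i₀, hi₀⟩ := Function.ne_iff.mp hx₀ne
    have : Nonempty ι := ⟨i₀⟩
    -- Scale a non-zero element of `K` to be one at a coordinate `j` of maximal norm.
    obtain ⟨j, hj⟩ := Finite.exists_max fun i => nrm p (x₀ i)
    have hj0 : x₀ j ≠ 0 := fun h => by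
      have := (nrm_pos p hi₀).trans_le (hj i₀)
      rw [h, nrm_zero] at this
      exact lt_irrefl _ this
    set x := (x₀ j)⁻¹ • x₀ with hx
    have hxj : x j = 1 := inv_mul_cancel₀ hj0
    have hxle : ∀ i, nrm p (x i) ≤ 1 := fun i => by
      rw [hx, Pi.smul_apply, smul_eq_mul, nrm_mul, nrm_inv, ← div_eq_inv_mul,
        div_le_one (nrm_pos p hj0)]
      exact hj i
    have hjs : j ∈ s := by
      by_contra h
      exact hj0 (hK x₀ hx₀ j h)
    -- Recurse on the subspace vanishing at `j`.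
    obtain ⟨P, hPs, hPinj, hPred⟩ := ih (s.erase j) (Finset.erase_ssubset hjs)
      (K ⊓ LinearMap.ker (LinearMap.proj j)) fun y hy i hi => by
        rcases eq_or_ne i j with rfl | hij
        · exact hy.2
        · exact hK y hy.1 i fun his => hi (Finset.mem_erase.mpr ⟨hij, his⟩)
    refine ⟨insert j P, Finset.insert_subset hjs (hPs.trans (Finset.erase_subset j s)),
      fun y hy hy0 => ?_, fun v r hv => ?_⟩
    · exact hPinj y ⟨hy, hy0 j (Finset.mem_insert_self j P)⟩
        fun i hi => hy0 i (Finset.mem_insert_of_mem hi)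
    -- Clearing the coordinate `j` does not increase the norms.
    · have hv1 : ∀ i, nrm p ((v - v j • x) i) ≤ r := fun i => by
        rw [Pi.sub_apply, Pi.smul_apply, smul_eq_mul]
        refine nrm_sub_le_of_le p (hv i) ?_
        rw [nrm_mul]
        exact (mul_le_of_le_one_right (nrm_nonneg p _) (hxle i)).trans (hv j)
      obtain ⟨v', hv', hv'P, hv'le⟩ := hPred _ r hv1
      refine ⟨v', ?_, fun i hi => ?_, hv'le⟩
      · rw [show v - v' = (v - v j • x - v') + v j • x by abel]
        exact K.add_mem hv'.1 (K.smul_mem _ (K.smul_mem _ hx₀))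
      · rcases Finset.mem_insert.mp hi with rfl | hi
        · have h := hv'.2
          rw [SetLike.mem_coe, LinearMap.mem_ker, LinearMap.proj_apply, Pi.sub_apply,
            Pi.sub_apply, Pi.smul_apply, hxj, smul_eq_mul, mul_one, sub_self, zero_sub,
            neg_eq_zero] at h
          exact h
        · exact hv'P i hi

variable {p} {M : Type} [AddCommGroup M] [Fintype M]

/-- Measures killing the functions invariant under a subgroup. -/
def invKer (L : AddSubgroup M) : Submodule QBar QBar[M] where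
  carrier := {μ | ∀ F : M → QBar, (∀ x, ∀ l ∈ L, F (x + l) = F x) → ev F μ = 0}
  zero_mem' F _ := map_zero _
  add_mem' {a b} ha hb F hF := by rw [map_add, ha F hF, hb F hF, add_zero]
  smul_mem' c a ha F hF := by rw [map_smul, ha F hF, smul_zero]

theorem invKer_mul {L : AddSubgroup M} {κ : QBar[M]} (h : κ ∈ invKer L) (ν : QBar[M]) :
    κ * ν ∈ invKer L := by
  induction ν using AddMonoidAlgebra.induction_linear with
  | zero => simp
  | add x y hx hy => rw [mul_add]; exact (invKer L).add_mem hx hy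
  | single y c =>
    intro F hF
    have key : ∀ μ : QBar[M], ev F (μ * single y c) = c * ev (fun x => F (x + y)) μ := by
      intro μ
      induction μ using AddMonoidAlgebra.induction_linear with
      | zero => simp
      | add a b ha hb => rw [add_mul, map_add, map_add, ha, hb, mul_add]
      | single x d => rw [single_mul_single, ev_single, ev_single]; ring
    rw [key, h (fun x => F (x + y)) (fun x l hl => by rw [add_right_comm, hF _ l hl]), mul_zero]

variable [DistribMulAction GQ M] (O : GalOrder p M)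

/-- The conjugate of a measure. -/
def galMap (σ : GQ) (μ : QBar[M]) : QBar[M] := ∑ m, single (σ • m) (σ (μ.coeff m))

theorem ev_galMap (σ : GQ) (μ : QBar[M]) (F : M → QBar) :
    ev F (galMap σ μ) = σ (ev (fun m => σ⁻¹ (F (σ • m))) μ) := by
  rw [galMap, map_sum, ev_apply, map_sum]
  refine Finset.sum_congr rfl fun m _ => ?_
  rw [ev_single, map_mul, ← AlgEquiv.mul_apply, mul_inv_cancel, AlgEquiv.one_apply]

theorem le_of_basis {μ : QBar[M]} {r : ℝ} (hr : 0 ≤ r)
    (h : ∀ i, nrm p (ev ((O.basis i : O.H) : M → QBar) μ) ≤ r) : Le O μ r := by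
  intro f hf
  have := congrArg (fun g : O.H => (g : M → QBar)) (O.basis.sum_repr ⟨f, hf⟩)
  simp only [AddSubmonoidClass.coe_finsetSum, SetLike.val_smul] at this
  rw [← this, ev_sum_fun]
  refine nrm_sum_le p _ _ hr fun i _ => ?_
  rw [show ((O.basis.repr ⟨f, hf⟩ i) • ((O.basis i : O.H) : M → QBar)) =
    (((O.basis.repr ⟨f, hf⟩ i : Zl p) : ℚ) : QBar) • ((O.basis i : O.H) : M → QBar) from
      funext fun m => zl_smul _ _, ev_smul_fun, nrm_mul]
  exact (mul_le_mul (nrm_zl_le_one p _) (h i) (nrm_nonneg p _) zero_le_one).trans (one_mul r).le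

/-- One improvement of a representative `1 + Y` of the coset: take the `p`-th power. -/
private theorem exists_better_representative (hp3 : 3 ≤ p) (hkill : ∀ m : M, p • m = 0)
    (L : AddSubgroup M) {m : M} {Y : QBar[M]} {y : ℝ} (hy0 : 0 ≤ y) (hyp : y ≤ (p : ℝ)⁻¹)
    (hY : Le O Y y) (hker : 1 + Y - (single m 1 : QBar[M]) ∈ invKer L) :
    ∃ Y' : QBar[M], Le O Y' (y * (p : ℝ)⁻¹) ∧ 1 + Y' - (single m 1 : QBar[M]) ∈ invKer L := by
  classical
  have hp0 : (0 : ℝ) < p := zero_lt_one.trans (one_lt_cast p)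
  have hy1 : y ≤ 1 := hyp.trans (inv_cast_lt_one p).le
  set δ : QBar[M] := single m 1
  have hR := le_pow_remainder O (le_one_measure (O := O)) hY hy1
  simp only [one_pow, one_mul] at hR
  refine ⟨-((p : QBar)⁻¹ • ((1 + Y) ^ p - 1 - (p : QBar) • Y)), ((hR.smul
    (s := (p : ℝ)) (by rw [nrm_inv, nrm_natCast_self, inv_inv])).mono ?_).neg, ?_⟩
  · rw [mul_max_of_nonneg _ _ hp0.le, ← mul_assoc,
      mul_inv_cancel₀ hp0.ne', one_mul]
    refine max_le ?_ ?_
    · rw [sq]
      exact mul_le_mul_of_nonneg_left hyp hy0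
    · have h2 : y ^ (p - 1) ≤ ((p : ℝ)⁻¹) ^ 2 :=
        (pow_le_pow_left₀ hy0 hyp _).trans
          (pow_le_pow_of_le_one (inv_cast_pos p).le (inv_cast_lt_one p).le (by omega))
      calc (p : ℝ) * y ^ p = y * ((p : ℝ) * y ^ (p - 1)) := by
            rw [← mul_pow_sub_one hp.out.ne_zero y]; ring
        _ ≤ y * ((p : ℝ) * ((p : ℝ)⁻¹) ^ 2) :=
            mul_le_mul_of_nonneg_left (mul_le_mul_of_nonneg_left h2 hp0.le) hy0
        _ = y * (p : ℝ)⁻¹ := by rw [sq, ← mul_assoc (p : ℝ), mul_inv_cancel₀ hp0.ne', one_mul]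
  · have hδp : δ ^ p = 1 := by
      rw [AddMonoidAlgebra.single_pow, one_pow, hkill]; rfl
    have h1 : (1 + Y) ^ p - δ ^ p ∈ invKer L := by
      obtain ⟨w, hw⟩ := sub_dvd_pow_sub_pow (1 + Y) δ p
      rw [hw]
      exact invKer_mul hker w
    rw [hδp] at h1
    have h2 := (invKer L).sub_mem hker ((invKer L).smul_mem (p : QBar)⁻¹ h1)
    convert h2 using 1
    rw [smul_sub _ ((1 + Y) ^ p - 1), smul_smul,
      inv_mul_cancel₀ (Nat.cast_ne_zero.mpr hp.out.ne_zero), one_smul]
    abel

/-- For odd `p` and `M` killed by `p`, a connected point whose coset modulo an inertia-stable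
subgroup is fixed by inertia lies in the subgroup. -/
theorem mem_of_fixed_coset (hp2 : p ≠ 2) (hkill : ∀ m : M, p • m = 0) (L : AddSubgroup M)
    (hL : ∀ σ ∈ inG p, ∀ l ∈ L, σ • l ∈ L) {m : M} (hm : m ∈ conn O)
    (hfix : ∀ σ ∈ inG p, σ • m - m ∈ L) : m ∈ L := by
  classical
  have hp3 : 3 ≤ p := by
    have := hp.out.two_le
    omega
  -- coordinates
  let C : QBar[M] →ₗ[QBar] (Module.Free.ChooseBasisIndex (Zl p) O.H → QBar) :=
    LinearMap.pi fun i => ev ((O.basis i : O.H) : M → QBar)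
  set K := (invKer L).map C with hK
  have hKσ : ∀ σ ∈ inG p, ∀ y ∈ K, (fun i => σ (y i)) ∈ K := by
    rintro σ hσ _ ⟨κ, hκ, rfl⟩
    refine ⟨galMap σ κ, fun F hF => ?_, funext fun i => ?_⟩
    · rw [ev_galMap, hκ _ (fun x l hl => ?_), map_zero]
      rw [smul_add, hF _ _ (hL σ hσ l hl)]
    · show ev _ (galMap σ κ) = σ (ev _ κ)
      rw [ev_galMap]
      congr 1
      have hfn : (fun x => σ⁻¹ (((O.basis i : O.H) : M → QBar) (σ • x))) =
          ((O.basis i : O.H) : M → QBar) := funext fun x => by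
        rw [O.equivariant _ (O.basis i).2, ← AlgEquiv.mul_apply, inv_mul_cancel, AlgEquiv.one_apply]
      rw [hfn]
  obtain ⟨P, -, hPinj, hPred⟩ := exists_reduction p Finset.univ K fun y _ i hi =>
    absurd (Finset.mem_univ i) hi
  set δ : QBar[M] := single m 1 with hδ
  set v := C (δ - 1) with hvdef
  have hv : ∀ i, v i = ((O.basis i : O.H) : M → QBar) m - ((O.basis i : O.H) : M → QBar) 0 :=
    fun i => by
      show ev _ (δ - 1) = _
      rw [map_sub, hδ, ev_single, one_mul, ev_one]
  -- a small first representative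
  have hstart : ∃ Y : QBar[M], Le O Y (p : ℝ)⁻¹ ∧ 1 + Y - δ ∈ invKer L := by
    obtain ⟨r, hr1, hr⟩ : ∃ r, r < 1 ∧ ∀ i, nrm p (v i) ≤ r := by
      rcases isEmpty_or_nonempty (Module.Free.ChooseBasisIndex (Zl p) O.H) with he | he
      · exact ⟨0, zero_lt_one, fun i => he.elim i⟩
      obtain ⟨j, hj⟩ := Finite.exists_max fun i => nrm p (v i)
      exact ⟨nrm p (v j), by rw [hv]; exact hm _ (O.basis j).2, hj⟩
    obtain ⟨v', ⟨κ, hκ, hκv⟩, hv'P, hv'le⟩ := hPred v r hr
    refine ⟨δ - 1 - κ, le_of_basis O (inv_cast_pos p).le fun i => ?_,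
      by rw [show 1 + (δ - 1 - κ) - δ = -κ by abel]; exact (invKer L).neg_mem hκ⟩
    have hval : ev ((O.basis i : O.H) : M → QBar) (δ - 1 - κ) = v' i := by
      show C (δ - 1 - κ) i = _
      rw [map_sub, ← hvdef, hκv, sub_sub_cancel]
    rw [hval]
    refine nrm_le_inv_of_fixed (fun σ hσ => ?_) ((hv'le i).trans_lt hr1)
    have hw : (fun l => σ (v' l)) - v' ∈ K := by
      have h1 : (fun l => σ (v l)) - v ∈ K := by
        refine ⟨single (σ • m) (1 : QBar) - δ, fun F hF => ?_, funext fun l => ?_⟩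
        · rw [map_sub, hδ, ev_single, ev_single, one_mul, one_mul, sub_eq_zero,
            ← hF m _ (hfix σ hσ), add_sub_cancel]
        · show ev _ (single (σ • m) (1 : QBar) - δ) = σ (v l) - v l
          rw [map_sub, hδ, ev_single, ev_single, one_mul, one_mul, hv, map_sub,
            ← O.equivariant _ (O.basis l).2, ← O.equivariant _ (O.basis l).2, smul_zero]
          ring
      have h2 : v - v' ∈ K := ⟨κ, hκ, hκv⟩
      have h3 := K.sub_mem (K.add_mem h1 h2) (hKσ σ hσ _ h2)
      convert h3 using 1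
      funext l
      simp only [Pi.sub_apply, Pi.add_apply, map_sub]
      ring
    have := hPinj _ hw fun l hl => by simp [hv'P l hl]
    exact sub_eq_zero.mp (congrFun this i)
  -- improve the representative
  have hiter : ∀ n : ℕ, ∃ Y : QBar[M], Le O Y (((p : ℝ)⁻¹) ^ (n + 1)) ∧
      1 + Y - δ ∈ invKer L := by
    intro n
    induction n with
    | zero => simpa using hstart
    | succ n ih =>
      obtain ⟨Y, hY, hker⟩ := ih
      rw [pow_succ ((p : ℝ)⁻¹) (n + 1)]
      exact exists_better_representative O hp3 hkill L (pow_nonneg (inv_cast_pos p).le _)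
        ((pow_le_pow_of_le_one (inv_cast_pos p).le (inv_cast_lt_one p).le
          (Nat.le_add_left 1 n)).trans (pow_one _).le) hY hker
  -- test against the indicator function of `L`: its coefficients are bounded
  set F : M → QBar := fun x => if x ∈ L then 1 else 0 with hFdef
  have hF : ∀ x, ∀ l ∈ L, F (x + l) = F x := fun x l hl => by
    simp only [hFdef, L.add_mem_cancel_right hl]
  obtain ⟨d, hd⟩ := O.exists_sum_smul_basis F
  obtain ⟨B, hB0, hB⟩ : ∃ B : ℝ, 0 ≤ B ∧ ∀ i, nrm p (d i) ≤ B :=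
    ⟨∑ i, nrm p (d i), Finset.sum_nonneg fun i _ => nrm_nonneg p _,
      fun i => Finset.single_le_sum (fun i _ => nrm_nonneg p (d i)) (Finset.mem_univ i)⟩
  by_contra hmL
  have hlt : ∀ n : ℕ, (1 : ℝ) ≤ B * ((p : ℝ)⁻¹) ^ (n + 1) := by
    intro n
    obtain ⟨Y, hY, hker⟩ := hiter n
    have h0 := hker F hF
    rw [map_sub, map_add, ev_one, hδ, ev_single, one_mul, show F 0 = 1 from if_pos L.zero_mem,
      show F m = 0 from if_neg hmL, sub_zero] at h0
    have h1 : nrm p (ev F Y) = 1 := by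
      rw [show ev F Y = -1 from eq_neg_of_add_eq_zero_right h0, nrm_neg, nrm_one]
    rw [← h1, ← hd, ev_sum_fun]
    refine nrm_sum_le p _ _ (mul_nonneg hB0 (pow_nonneg (inv_cast_pos p).le _)) fun i _ => ?_
    rw [ev_smul_fun, nrm_mul]
    exact mul_le_mul (hB i) (hY _ (O.basis i).2) (nrm_nonneg p _) hB0
  obtain ⟨n, hn⟩ := exists_pow_lt_of_lt_one (inv_pos.mpr (add_pos_of_nonneg_of_pos hB0 one_pos))
    (inv_cast_lt_one p)
  have h1 := hlt n
  have h2 : B * ((p : ℝ)⁻¹) ^ (n + 1) < 1 := by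
    have h3 : ((p : ℝ)⁻¹) ^ (n + 1) ≤ ((p : ℝ)⁻¹) ^ n :=
      pow_le_pow_of_le_one (inv_cast_pos p).le (inv_cast_lt_one p).le (Nat.le_succ n)
    calc B * ((p : ℝ)⁻¹) ^ (n + 1) ≤ B * (B + 1)⁻¹ :=
          mul_le_mul_of_nonneg_left (h3.trans hn.le) hB0
      _ < 1 := by
        rw [← div_eq_mul_inv, div_lt_one (by linarith)]
        linarith
  linarith

end Fermat.Agent.CFT.Flat
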