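import Fermat.Agent.CFT.Flat.Monotone
import Fermat.Agent.CFT.Flat.Tame

/-!
# Kummer generators over tame inertia of level `p ^ 2 - 1`

The main theorem is `IsTameHom.exists_unit_radical`: under the ramification bound the radical can be
chosen congruent to one to high order.
-/

set_option autoImplicit false

noncomputable section

namespace Fermat.Agent.CFT.Flat

open Fermat.Agent.Arith Fermat.Agent.FiniteFlat Polynomial

variable (p : ℕ) [hp : Fact p.Prime]

/-! ### Tame homomorphisms and their radicals -/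

/-- A fixed primitive `p`-th root of unity. -/
def zp : QBar :=
  haveI : NeZero (p : QBar) := ⟨Nat.cast_ne_zero.mpr hp.out.ne_zero⟩
  (HasEnoughRootsOfUnity.exists_primitiveRoot QBar p).choose

/-- The chosen `zp p` is a primitive `p`-th root of unity. -/
theorem zp_spec : IsPrimitiveRoot (zp p) p :=
  haveI : NeZero (p : QBar) := ⟨Nat.cast_ne_zero.mpr hp.out.ne_zero⟩
  (HasEnoughRootsOfUnity.exists_primitiveRoot QBar p).choose_spec

theorem zp_pow_val_add (a b : ZMod p) :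
    zp p ^ (a + b).val = zp p ^ a.val * zp p ^ b.val := by
  rw [← pow_add, ZMod.val_add]
  conv_rhs => rw [← Nat.mod_add_div (a.val + b.val) p, pow_add, pow_mul,
    (zp_spec p).pow_eq_one, one_pow, mul_one]

/-- A subgroup whose every overgroup obeys the ramification bound. -/
def IsBdd (H : Subgroup GQ) : Prop :=
  ∀ K : Subgroup GQ, H ≤ K → ∀ ϖ : QBar, IsUnif (p := p) K ϖ →
    ((orb p ϖ).erase ϖ).Nonempty → ¬ ((p : ℝ) * (brk p ϖ / nrm p ϖ)) ^ (p - 1) < (p : ℝ)⁻¹

/-- Tame inertia fixing a Galois order killed by `p` satisfies the ramification bound. -/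
theorem isBdd_of_galOrder {M : Type} [AddCommGroup M] [DistribMulAction GQ M] [Finite M]
    (O : GalOrder p M) (hkill : ∀ m : M, p • m = 0) : IsBdd p (fixM p M ⊓ tame p) := by
  have := Fintype.ofFinite M
  exact fun K hK ϖ v hne => fontaine_sub O hkill (e₀_pos p) (not_dvd_e₀ p) (rad_pow p) hK v hne

/-- A homomorphism from tame inertia to `ℤ/p` vanishing on `H`. -/
structure IsTameHom (H : Subgroup GQ) (c : GQ → ZMod p) : Prop where
  level : IsLevel p H
  le : H ≤ tame p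
  add : ∀ g ∈ tame p, ∀ h ∈ tame p, c (g * h) = c g + c h
  zero : ∀ h ∈ H, c h = 0

variable {p}

theorem IsTameHom.apply_one {H : Subgroup GQ} {c : GQ → ZMod p} (h : IsTameHom p H c) : c 1 = 0 :=
  h.zero 1 H.one_mem

/-- Existence of Kummer generators. -/
theorem IsTameHom.exists_radical {H : Subgroup GQ} {c : GQ → ZMod p} (h : IsTameHom p H c) :
    ∃ α : QBar, α ≠ 0 ∧ ∀ g ∈ tame p, g α = zp p ^ (c g).val * α := by
  classical
  obtain ⟨L, hLf, hLn, hεL, hle⟩ := h.level.exists_field (zp p)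
  set G := (tame p).map (AlgEquiv.restrictNormalHom L)
  have hker : ∀ g ∈ tame p, AlgEquiv.restrictNormalHom L g = 1 → c g = 0 := by
    intro g hg h1
    refine h.zero g (hle ⟨((mem_tame p).mp hg).1, ?_⟩)
    show g ∈ L.fixingSubgroup
    rw [IntermediateField.mem_fixingSubgroup_iff]
    intro x hx
    have := AlgEquiv.restrictNormal_commutes g L ⟨x, hx⟩
    rw [show g.restrictNormal L = AlgEquiv.restrictNormalHom L g from rfl, h1] at this
    exact this.symm
  -- `c` factors through the image `G` of the tame group in a finite normal extension `L`.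
  choose pre hpre hpre' using fun x : G => Subgroup.mem_map.mp x.2
  have hwell : ∀ (x : G) (g : GQ), g ∈ tame p → AlgEquiv.restrictNormalHom L g = x →
      c g = c (pre x) := by
    intro x g hg hgx
    have h1 : (pre x)⁻¹ * g ∈ tame p := (tame p).mul_mem ((tame p).inv_mem (hpre x)) hg
    have h2 := h.add _ (hpre x) _ h1
    rw [mul_inv_cancel_left] at h2
    rw [h2, hker _ h1 (by rw [map_mul, map_inv, hpre' x, hgx, inv_mul_cancel]), add_zero]
  set ε : L := ⟨zp p, hεL⟩ with hε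
  have hεfix : ∀ x : G, (x : L ≃ₐ[ℚ] L) ε = ε := fun x => by
    rw [← hpre' x]
    exact Subtype.ext ((AlgEquiv.restrictNormal_commutes (pre x) L ε).trans
      (tame_fixes_zeta p (zp_spec p) (hpre x)))
  set f : G → L := fun x => ε ^ (c (pre x)).val with hf
  have hfmul : ∀ x y : G, f (x * y) = f x * f y := by
    intro x y
    have := hwell (x * y) (pre x * pre y) ((tame p).mul_mem (hpre x) (hpre y))
      (by rw [map_mul, hpre', hpre']; rfl)
    rw [h.add _ (hpre x) _ (hpre y)] at this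
    refine Subtype.ext ?_
    show ((ε ^ (c (pre (x * y))).val : L) : QBar) = _
    rw [← this]
    simp only [hf, hε, SubmonoidClass.coe_pow, MulMemClass.coe_mul]
    exact zp_pow_val_add p _ _
  have hf0 : ∀ x, f x ≠ 0 := fun x => pow_ne_zero _ fun h0 =>
    (zp_spec p).ne_zero hp.out.ne_zero (congrArg Subtype.val h0)
  have : Fintype G := Fintype.ofFinite G
  -- Lagrange resolvent: the characters of `G` are independent.
  obtain ⟨z, hz⟩ : ∃ z : L, ∑ x : G, (f x)⁻¹ * (x : L ≃ₐ[ℚ] L) z ≠ 0 := by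
    by_contra hall
    simp only [not_exists, not_not] at hall
    have hli := (linearIndependent_monoidHom L L).comp
      (fun x : G => ((x : L ≃ₐ[ℚ] L).toAlgHom.toRingHom.toMonoidHom))
      (fun x y e => Subtype.ext (AlgEquiv.ext fun t => DFunLike.congr_fun e t))
    have := Fintype.linearIndependent_iff.mp hli (fun x => (f x)⁻¹) (by
      funext t
      simpa [Finset.sum_apply] using hall t) 1
    exact inv_ne_zero (hf0 1) this
  set β := ∑ x : G, (f x)⁻¹ * (x : L ≃ₐ[ℚ] L) z with hβ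
  refine ⟨(β : QBar), fun h0 => hz (Subtype.ext h0), fun g hg => ?_⟩
  set y : G := ⟨_, Subgroup.mem_map_of_mem _ hg⟩
  -- `G` multiplies the resolvent by the powers of `ζ` given by `c`.
  have key : (y : L ≃ₐ[ℚ] L) β = f y * β := by
    rw [hβ, map_sum, Finset.mul_sum]
    refine Fintype.sum_equiv (Equiv.mulLeft y) _ _ fun x => ?_
    rw [map_mul, map_inv₀, show (y : L ≃ₐ[ℚ] L) (f x) = f x by rw [hf, map_pow, hεfix],
      show Equiv.mulLeft y x = y * x from rfl, hfmul y x, mul_inv, ← mul_assoc, ← mul_assoc,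
      mul_inv_cancel₀ (hf0 y), one_mul]
    rfl
  refine (AlgEquiv.restrictNormal_commutes g L β).symm.trans ?_
  show ((((y : L ≃ₐ[ℚ] L)) β : L) : QBar) = _
  rw [key, MulMemClass.coe_mul, hwell y g hg rfl]
  rfl

/-! ### Normal forms -/

/-- Powers of a principal unit. -/
theorem nrm_zpow_sub_one_le {w : QBar} (hw : nrm p w = 1) (a : ℤ) :
    nrm p (w ^ a - 1) ≤ nrm p (w - 1) := by
  have hnat : ∀ i : ℕ, nrm p (w ^ i - 1) ≤ nrm p (w - 1) := fun i => by
    rw [← geom_sum_mul, nrm_mul]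
    exact mul_le_of_le_one_left (nrm_nonneg p _) (nrm_sum_le p _ _ zero_le_one fun j _ => by
      rw [nrm_pow, hw, one_pow])
  rcases Int.eq_nat_or_neg a with ⟨i, rfl | rfl⟩
  · rw [zpow_natCast]; exact hnat i
  · have hw0 : w ≠ 0 := fun h => by rw [h, nrm_zero] at hw; exact zero_ne_one hw
    rw [zpow_neg, zpow_natCast, show (w ^ i)⁻¹ - 1 = -((w ^ i - 1) * (w ^ i)⁻¹) by
      rw [sub_mul, mul_inv_cancel₀ (pow_ne_zero _ hw0), one_mul, neg_sub], nrm_neg, nrm_mul,
      nrm_inv, nrm_pow, hw, one_pow, inv_one, mul_one]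
    exact hnat i

/-- `α` is an eigenvector for `c` on tame inertia. -/
def IsEigen (p : ℕ) [Fact p.Prime] (c : GQ → ZMod p) (α : QBar) : Prop :=
  α ≠ 0 ∧ ∀ g ∈ tame p, g α = zp p ^ (c g).val * α

theorem IsEigen.mul_fixed {c : GQ → ZMod p} {α y : QBar} (h : IsEigen p c α) (hy0 : y ≠ 0)
    (hy : ∀ g ∈ tame p, g y = y) : IsEigen p c (α * y) :=
  ⟨mul_ne_zero h.1 hy0, fun g hg => by rw [map_mul, h.2 g hg, hy g hg, mul_assoc]⟩

theorem IsEigen.pow_fixed {c : GQ → ZMod p} {α : QBar} (h : IsEigen p c α) :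
    ∀ g ∈ tame p, g (α ^ p) = α ^ p := fun g hg => by
  rw [map_pow, h.2 g hg, mul_pow, ← pow_mul, mul_comm _ p, pow_mul, (zp_spec p).pow_eq_one,
    one_pow, one_mul]

theorem exists_root_pth {ζ : QBar} {m : ℕ} (hm : 0 < m) (hζ : ζ ^ m = 1) (hpm : ¬ p ∣ m) :
    ∃ ξ : QBar, ξ ^ m = 1 ∧ ξ ^ p = ζ := by
  obtain ⟨a, ha⟩ : ∃ a : ℕ, (p * a) % m = 1 % m := by
    rcases eq_or_lt_of_le (Nat.one_le_iff_ne_zero.mpr hm.ne') with rfl | hm1
    · exact ⟨0, by simp⟩
    · obtain ⟨a, -, ha⟩ := Nat.exists_mul_mod_eq_one_of_coprime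
        ((hp.out.coprime_iff_not_dvd).mpr hpm) hm1
      exact ⟨a, by rw [ha, Nat.mod_eq_of_lt hm1]⟩
  refine ⟨ζ ^ a, by rw [← pow_mul, mul_comm, pow_mul, hζ, one_pow], ?_⟩
  have hmod : ∀ n : ℕ, ζ ^ n = ζ ^ (n % m) := fun n => by
    conv_lhs => rw [← Nat.mod_add_div n m, pow_add, pow_mul, hζ, one_pow, mul_one]
  rw [← pow_mul, mul_comm, hmod, ha, ← hmod, pow_one]

theorem rad_zpow_fixed {g : GQ} (hg : g ∈ tame p) (k : ℤ) : g (rad p ^ k) = rad p ^ k := by
  rw [map_zpow₀, ((mem_tame p).mp hg).2]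

/-- A level divisible by `p` can be improved. -/
theorem IsEigen.exists_improve {c : GQ → ZMod p} {β : QBar} (hβ : IsEigen p c β) {i : ℕ}
    (hi : 1 ≤ i) (hiN : i < p * (p + 1)) (hpi : p ∣ i)
    (hle : nrm p (β ^ p - 1) ≤ nrm p (rad p) ^ i) :
    ∃ β', IsEigen p c β' ∧ nrm p (β' ^ p - 1) ≤ nrm p (rad p) ^ (i + 1) := by
  classical
  have u := isUnif_rad p
  have hq0 := u.pos
  rcases hle.lt_or_eq with hlt' | heq
  · exact ⟨β, hβ, u.nrm_le_of_lt (fun g hg => by rw [map_sub, hβ.pow_fixed g hg, map_one]) hlt'⟩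
  obtain ⟨l, rfl⟩ := hpi
  -- remove the leading term
  have hw : nrm p ((β ^ p - 1) / rad p ^ (p * l)) = 1 := by
    rw [nrm_div, heq, nrm_pow, div_self (pow_pos hq0 _).ne']
  obtain ⟨ζ', m', hm', hpm', hζ', hlt''⟩ := exists_rootOfUnity p hw
  obtain ⟨ξ', hξm', hξp'⟩ := exists_root_pth hm' hζ' hpm'
  set t := ξ' * rad p ^ l with ht
  have hl : 1 ≤ l := by
    rcases Nat.eq_zero_or_pos l with rfl | hl0
    · rw [mul_zero] at hi; omega
    · exact hl0
  have ht1 : nrm p t = nrm p (rad p) ^ l := by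
    rw [nrm_mul, nrm_root p hm' hξm', one_mul, nrm_pow]
  have htlt : nrm p t < 1 := by rw [ht1]; exact pow_lt_one₀ hq0.le u.lt_one (by omega)
  have h1t : nrm p (1 + t) = 1 := by
    rw [nrm_add_eq_of_lt p (by rwa [nrm_one]), nrm_one]
  have h1t0 : 1 + t ≠ 0 := fun h0 => by rw [h0, nrm_zero] at h1t; exact zero_ne_one h1t
  have hβ' := hβ.mul_fixed (y := (1 + t)⁻¹) (inv_ne_zero h1t0) fun g hg => by
    rw [map_inv₀, map_add, map_one, ht, map_mul, map_pow, ((mem_tame p).mp hg).2,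
      inG_fix_root p ((mem_tame p).mp hg).1 hξm' hpm']
  refine ⟨_, hβ', u.nrm_le_of_lt (fun g hg => by rw [map_sub, hβ'.pow_fixed g hg, map_one]) ?_⟩
  rw [mul_pow, inv_pow, show β ^ p * ((1 + t) ^ p)⁻¹ - 1 =
    ((β ^ p - 1 - t ^ p) - ((1 + t) ^ p - 1 - t ^ p)) * ((1 + t) ^ p)⁻¹ by
    rw [show (β ^ p - 1 - t ^ p) - ((1 + t) ^ p - 1 - t ^ p) = β ^ p - (1 + t) ^ p by ring,
      sub_mul, mul_inv_cancel₀ (pow_ne_zero _ h1t0)],
    nrm_mul, nrm_inv, nrm_pow, h1t, one_pow, inv_one, mul_one]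
  refine nrm_sub_lt_of_lt p ?_ ?_
  · rw [ht, mul_pow, hξp', ← pow_mul, mul_comm l p, show β ^ p - 1 - ζ' * rad p ^ (p * l) =
      rad p ^ (p * l) * ((β ^ p - 1) / rad p ^ (p * l) - ζ') by
        rw [mul_sub, mul_div_cancel₀ _ (pow_ne_zero _ (rad_ne_zero p))]; ring, nrm_mul, nrm_pow]
    exact mul_lt_of_lt_one_right (pow_pos hq0 _) hlt''
  · rw [show (1 + t) ^ p - 1 - t ^ p =
        ∑ j ∈ Finset.Ico 1 p, ((p.choose j : ℕ) : QBar) * t ^ j by
      rw [add_comm, add_pow, Finset.sum_range_succ, Nat.choose_self, Nat.cast_one, mul_one,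
        Nat.sub_self, pow_zero, mul_one, Finset.range_eq_Ico,
        Finset.sum_eq_sum_Ico_succ_bot hp.out.pos, pow_zero, Nat.choose_zero_right, Nat.cast_one,
        one_pow, mul_one, mul_one, zero_add,
        show ∀ S : QBar, 1 + S + t ^ p - 1 - t ^ p = S from fun S => by ring]
      exact Finset.sum_congr rfl fun j _ => by rw [one_pow, mul_one, mul_comm]]
    refine (nrm_sum_le p _ _ (mul_nonneg (inv_cast_pos p).le (nrm_nonneg p t))
      fun j hj => ?_).trans_lt ?_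
    · rw [Finset.mem_Ico] at hj
      rw [nrm_mul, nrm_pow]
      exact mul_le_mul (nrm_natCast_le_inv_of_dvd p (hp.out.dvd_choose_self (by omega) hj.2))
        (pow_le_of_le_one (nrm_nonneg p t) htlt.le (by omega))
        (pow_nonneg (nrm_nonneg p t) _) (inv_cast_pos p).le
    · rw [ht1, ← nrm_rad_pow p, ← pow_add]
      refine pow_lt_pow_right_of_lt_one₀ hq0 u.lt_one ?_
      rw [e₀_eq]
      have hlp : l < p + 1 := Nat.lt_of_mul_lt_mul_left (a := p) hiN
      obtain ⟨r, hr⟩ : ∃ r, p = r + 2 := ⟨p - 2, by have := hp.out.two_le; omega⟩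
      rw [hr] at hlp ⊢
      simp only [show r + 2 - 1 = r + 1 from rfl]
      nlinarith

/-- A radical in normal form. -/
theorem IsEigen.exists_normal {c : GQ → ZMod p} {α : QBar} (h : IsEigen p c α) :
    ∃ α', IsEigen p c α' ∧
      ((∃ k : ℤ, ¬ (p : ℤ) ∣ k ∧ nrm p (α' ^ p) = nrm p (rad p) ^ k) ∨
        (∃ i : ℕ, i < p * (p + 1) ∧ ¬ p ∣ i ∧
          nrm p (α' ^ p - 1) = nrm p (rad p) ^ i) ∨
        nrm p (α' ^ p - 1) ≤ nrm p (rad p) ^ (p * (p + 1))) := by
  classical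
  have u := isUnif_rad p
  have hq0 := u.pos
  have hp0 : (p : ℤ) ≠ 0 := Int.natCast_ne_zero.mpr hp.out.ne_zero
  obtain ⟨k, hk⟩ := u.exists_zpow (pow_ne_zero p h.1) h.pow_fixed
  by_cases hpk : (p : ℤ) ∣ k
  swap
  · exact ⟨α, h, Or.inl ⟨k, hpk, hk⟩⟩
  obtain ⟨k', rfl⟩ := hpk
  -- a unit
  have h1 := h.mul_fixed (y := rad p ^ (-k')) (zpow_ne_zero _ (rad_ne_zero p))
    fun g hg => rad_zpow_fixed hg _
  set α₁ := α * rad p ^ (-k')
  have hα₁ : nrm p (α₁ ^ p) = 1 := by
    rw [mul_pow, nrm_mul, hk, nrm_pow,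
      show nrm p (rad p ^ (-k')) = nrm p (rad p) ^ (-k') by simp [nrm, map_zpow₀, norm_zpow],
      ← zpow_natCast (nrm p (rad p) ^ (-k')), ← zpow_mul, ← zpow_add₀ hq0.ne']
    rw [show (p : ℤ) * k' + -k' * p = 0 by ring, zpow_zero]
  -- a principal unit
  obtain ⟨ζ, m, hm, hpm, hζ, hlt⟩ := exists_rootOfUnity p hα₁
  obtain ⟨ξ, hξm, hξp⟩ := exists_root_pth hm hζ hpm
  have hξ0 : ξ ≠ 0 := fun h0 => by rw [h0, zero_pow hm.ne'] at hξm; exact zero_ne_one hξm
  have h2 := h1.mul_fixed (y := ξ⁻¹) (inv_ne_zero hξ0) fun g hg => by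
    rw [map_inv₀, inG_fix_root p ((mem_tame p).mp hg).1 hξm hpm]
  set α₂ := α₁ * ξ⁻¹
  have hα₂ : nrm p (α₂ ^ p - 1) < 1 := by
    rw [mul_pow, inv_pow, hξp, show α₁ ^ p * ζ⁻¹ - 1 = (α₁ ^ p - ζ) * ζ⁻¹ by
      rw [sub_mul, mul_inv_cancel₀ (by rw [← hξp]; exact pow_ne_zero _ hξ0)], nrm_mul, nrm_inv,
      nrm_root p hm hζ, inv_one, mul_one]
    exact hlt
  -- improve the level
  set N := p * (p + 1) with hN
  suffices hmain : ∀ (d i : ℕ) (β : QBar), N - i = d → 1 ≤ i → IsEigen p c β →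
      nrm p (β ^ p - 1) ≤ nrm p (rad p) ^ i →
      ∃ β', IsEigen p c β' ∧ ((∃ i : ℕ, i < N ∧ ¬ p ∣ i ∧
          nrm p (β' ^ p - 1) = nrm p (rad p) ^ i) ∨
        nrm p (β' ^ p - 1) ≤ nrm p (rad p) ^ N) by
    obtain ⟨β', hβ', hor⟩ := hmain (N - 1) 1 α₂ rfl le_rfl h2 (by
      have := u.nrm_le_of_lt (k := 0) (x := α₂ ^ p - 1)
        (fun g hg => by rw [map_sub, h2.pow_fixed g hg, map_one]) (by rwa [pow_zero])
      rwa [zero_add] at this)
    exact ⟨β', hβ', Or.inr hor⟩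
  intro d
  induction d using Nat.strong_induction_on with
  | _ d ih =>
    intro i β hd hi hβ hle
    rcases le_or_gt N i with hNi | hiN
    · exact ⟨β, hβ, Or.inr (hle.trans (pow_le_pow_of_le_one (nrm_nonneg p _) u.lt_one.le hNi))⟩
    rcases hle.lt_or_eq with hlt' | heq
    · exact ih (N - (i + 1)) (by omega) (i + 1) β rfl (by omega) hβ
        (u.nrm_le_of_lt (fun g hg => by rw [map_sub, hβ.pow_fixed g hg, map_one]) hlt')
    by_cases hpi : p ∣ i
    swap
    · exact ⟨β, hβ, Or.inl ⟨i, hiN, hpi, heq⟩⟩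
    obtain ⟨β', hβ', hle'⟩ := hβ.exists_improve hi hiN hpi hle
    exact ih (N - (i + 1)) (by omega) (i + 1) β' rfl (by omega) hβ' hle'

/-- Radicals close to one are unramified. -/
theorem IsEigen.eq_zero_of_deep {c : GQ → ZMod p} {α : QBar} (h : IsEigen p c α)
    (hdeep : nrm p (α ^ p - 1) ≤ nrm p (rad p) ^ (p * (p + 1))) {g : GQ} (hg : g ∈ tame p) :
    c g = 0 := by
  classical
  set q := nrm p (rad p)
  have hlam := nrm_root_sub_one p (zp_spec p)
  have hprod := congrArg (eval α) (X_pow_sub_C_eq_prod (zp_spec p) hp.out.pos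
    (one_pow p : (1 : QBar) ^ p = 1))
  rw [eval_sub, eval_pow, eval_X, eval_C, eval_prod] at hprod
  simp only [eval_sub, eval_X, eval_C, mul_one] at hprod
  -- Take the power of `ζ` nearest to `α`; it is within `q ^ (p + 1)`.
  obtain ⟨j, hj, hmin⟩ := (Finset.range p).exists_min_image
    (fun j => nrm p (α - zp p ^ j)) ⟨0, Finset.mem_range.mpr hp.out.pos⟩
  have hnear : nrm p (α - zp p ^ j) ≤ q ^ (p + 1) := by
    by_contra hcon
    rw [not_le] at hcon
    have : (q ^ (p + 1)) ^ p < nrm p (α ^ p - 1) := by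
      rw [hprod, nrm_prod]
      calc (q ^ (p + 1)) ^ p = ∏ _j ∈ Finset.range p, q ^ (p + 1) := by simp
        _ < _ := Finset.prod_lt_prod_of_nonempty
          (fun _ _ => pow_pos (isUnif_rad p).pos _)
          (fun i hi => hcon.trans_le (hmin i hi)) ⟨0, Finset.mem_range.mpr hp.out.pos⟩
    rw [← pow_mul, mul_comm] at this
    exact absurd hdeep (not_le.mpr this)
  set ε := zp p
  have hεj : nrm p (ε ^ j) = 1 :=
    nrm_root p hp.out.pos (by rw [← pow_mul, mul_comm, pow_mul, (zp_spec p).pow_eq_one, one_pow])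
  have hεj0 : ε ^ j ≠ 0 := pow_ne_zero _ ((zp_spec p).ne_zero hp.out.ne_zero)
  -- `z` is integral, so tame elements move it by less than a unit,
  set z := (α / ε ^ j - 1) / (ε - 1) with hz
  have hε1 : ε - 1 ≠ 0 := sub_ne_zero.mpr ((zp_spec p).ne_one hp.out.one_lt)
  have hqpos : 0 < q ^ (p + 1) := pow_pos (isUnif_rad p).pos _
  have hz1 : nrm p z ≤ 1 := by
    rw [hz, div_sub_one hεj0, nrm_div, nrm_div, hεj, div_one, hlam, div_le_one hqpos]
    exact hnear
  have hα : nrm p α = 1 := by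
    rw [show α = ε ^ j + (α - ε ^ j) by ring, nrm_add_eq_of_lt p, hεj]
    rw [hεj]
    exact hnear.trans_lt (pow_lt_one₀ (nrm_nonneg p _) (isUnif_rad p).lt_one (by omega))
  have hεfix := tame_fixes_zeta p (zp_spec p) hg
  have hinert := nrm_sub_lt_one_of_mem_inG p ((mem_tame p).mp hg).1 hz1
  by_contra hc
  -- but a non-zero `c g` moves it by a unit.
  have hdiff : g z - z = α / ε ^ j * ((ε ^ (c g).val - 1) / (ε - 1)) := by
    rw [hz, map_div₀, map_sub, map_sub, map_div₀, map_pow, map_one, hεfix, h.2 g hg]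
    ring
  rw [hdiff, nrm_mul, nrm_div, hα, hεj, div_one, one_mul, nrm_div, hlam,
    div_lt_one hqpos] at hinert
  have hv : ¬ p ∣ (c g).val := fun hd => hc (by
    have h1 := ZMod.val_lt (c g)
    have h2 : (c g).val = 0 := Nat.eq_zero_of_dvd_of_lt hd h1
    exact (ZMod.val_eq_zero (c g)).mp h2)
  have hprim := (zp_spec p).pow_of_coprime (c g).val
    ((hp.out.coprime_iff_not_dvd).mpr hv).symm
  rw [nrm_root_sub_one p hprim] at hinert
  exact lt_irrefl _ hinert

/-! ### No break above the bound -/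

/-- The exponents in a break estimate. -/
private theorem break_exponent (s : ℕ) :
    (p * e₀ p - p) + (p - 1) * (s + 1) + (s + 1) = p * e₀ p + p * s := by
  obtain ⟨r, hr⟩ : ∃ r, p = r + 1 := ⟨p - 1, by have := hp.out.pos; omega⟩
  have h1 : p ≤ p * e₀ p := Nat.le_mul_of_pos_right p (e₀_pos p)
  obtain ⟨X, hX⟩ : ∃ X, p * e₀ p = X + p := ⟨p * e₀ p - p, by omega⟩
  rw [hX, Nat.add_sub_cancel, hr, Nat.add_sub_cancel]
  ring

/-- A large break is beyond the bound. -/
private theorem bound_lt_break {s : ℕ} (hs : p + 2 ≤ s) :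
    p * ((p + 1) * (p - 1)) < (p * s - 1) * (p - 1) := by
  obtain ⟨r, hr⟩ : ∃ r, p = r + 1 := ⟨p - 1, by have := hp.out.pos; omega⟩
  have hr1 : 1 ≤ r := by have := hp.out.two_le; omega
  have h2 : p * (p + 1) + 1 < p * s := by
    have : p * (p + 2) ≤ p * s := Nat.mul_le_mul_left p hs
    have h2p : p * (p + 2) = p * (p + 1) + p := by ring
    have := hp.out.two_le
    omega
  calc p * ((p + 1) * (p - 1)) = (p * (p + 1)) * (p - 1) := by ring
    _ < (p * s - 1) * (p - 1) :=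
      Nat.mul_lt_mul_of_pos_right (by omega) (by omega)

/-- A nontrivial homomorphism into a group of order `p` has kernel of index `p`. -/
private theorem index_ker_eq_of_ne_zero {G : Type*} [Group G]
    (φ : G →* Multiplicative (ZMod p)) (hφ : φ.range ≠ ⊥) : φ.ker.index = p := by
  have hcard : Nat.card (Multiplicative (ZMod p)) = p := Nat.card_zmod p
  have : Fact (Nat.Prime (Nat.card (Multiplicative (ZMod p)))) :=
    ⟨hcard.symm ▸ hp.out⟩
  rw [Subgroup.index_ker]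
  rcases φ.range.eq_bot_or_eq_top_of_prime_card with hbot | htop
  · exact absurd hbot hφ
  · rw [htop, Subgroup.card_top, hcard]

/-- Representatives of the nonzero values of a tame homomorphism move a uniformiser of the kernel
to `p - 1` distinct conjugates. -/
private theorem IsTameHom.exists_conjugates {H : Subgroup GQ} {c : GQ → ZMod p}
    (h : IsTameHom p H c) {ϖ : QBar} (hc0 : ¬ ∀ g ∈ tame p, c g = 0)
    (hker : ∀ g ∈ inG p, g ϖ = ϖ → g ∈ tame p ∧ c g = 0) :
    ∃ A : Finset QBar, A ⊆ (orb p ϖ).erase ϖ ∧ A.card = p - 1 ∧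
      ∀ r ∈ A, ∃ g ∈ tame p, c g ≠ 0 ∧ g ϖ = r := by
  classical
  obtain ⟨g₁, hg₁, hcg₁⟩ : ∃ g ∈ tame p, c g ≠ 0 := by simpa [not_forall] using hc0
  have hpow : ∀ n : ℕ, c (g₁ ^ n) = n * c g₁ := by
    intro n
    induction n with
    | zero => rw [pow_zero, h.apply_one, Nat.cast_zero, zero_mul]
    | succ n ih =>
      rw [pow_succ, h.add _ ((tame p).pow_mem hg₁ n) _ hg₁, ih, Nat.cast_succ, add_mul, one_mul]
  have hsurj : ∀ w : ZMod p, ∃ g ∈ tame p, c g = w := fun w =>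
    ⟨g₁ ^ (w * (c g₁)⁻¹).val, (tame p).pow_mem hg₁ _, by
      rw [hpow, ZMod.natCast_val, ZMod.cast_id, inv_mul_cancel_right₀ hcg₁]⟩
  choose rep hrep hrepc using hsurj
  set W := (Finset.univ : Finset (ZMod p)).erase 0
  refine ⟨W.image fun w => rep w ϖ, ?_, ?_, ?_⟩
  · intro r hr
    obtain ⟨w, hw, rfl⟩ := Finset.mem_image.mp hr
    refine Finset.mem_erase.mpr ⟨fun he => (Finset.mem_erase.mp hw).1 ?_,
      mem_orb.mpr ⟨_, ((mem_tame p).mp (hrep w)).1, rfl⟩⟩
    rw [← hrepc w]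
    exact (hker _ ((mem_tame p).mp (hrep w)).1 he).2
  · rw [Finset.card_image_of_injective, Finset.card_erase_of_mem (Finset.mem_univ _),
      Finset.card_univ, ZMod.card]
    intro w w' he
    have hmem := hker _ ((inG p).mul_mem ((inG p).inv_mem
      ((mem_tame p).mp (hrep w)).1) ((mem_tame p).mp (hrep w')).1) (by
        rw [AlgEquiv.mul_apply, ← show rep w ϖ = rep w' ϖ from he, ← AlgEquiv.mul_apply,
          inv_mul_cancel, AlgEquiv.one_apply])
    have h2 := h.add _ (hrep w) _ ((tame p).mul_mem ((tame p).inv_mem (hrep w)) (hrep w'))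
    rw [mul_inv_cancel_left, hmem.2, add_zero, hrepc, hrepc] at h2
    exact h2.symm
  · intro r hr
    obtain ⟨w, hw, rfl⟩ := Finset.mem_image.mp hr
    exact ⟨_, hrep w, by rw [hrepc]; exact (Finset.mem_erase.mp hw).1, rfl⟩

/-- A uniformiser fixed exactly by the kernel of a tame homomorphism, with a large break,
contradicts the ramification bound. -/
private theorem IsTameHom.false_of_break {H : Subgroup GQ} {c : GQ → ZMod p} (h : IsTameHom p H c)
    (hbdd : IsBdd p H) (hc0 : ¬ ∀ g ∈ tame p, c g = 0) {ϖ : QBar} {s : ℕ}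
    (hϖp : nrm p ϖ ^ p = nrm p (rad p)) (hs : p + 2 ≤ s)
    (hfix : ∀ g ∈ tame p, c g = 0 → g ϖ = ϖ)
    (hmove : ∀ g ∈ tame p, c g ≠ 0 → nrm p (g ϖ - ϖ) ≤ nrm p ϖ ^ (s + 1)) : False := by
  classical
  -- the kernel
  let φ : tame p →* Multiplicative (ZMod p) :=
    { toFun := fun g => Multiplicative.ofAdd (c g)
      map_one' := by rw [Subgroup.coe_one, h.apply_one]; rfl
      map_mul' := fun a b => by rw [Subgroup.coe_mul, h.add _ a.2 _ b.2]; rfl }
  set K := φ.ker.map (tame p).subtype with hK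
  have hKmem : ∀ {g}, g ∈ K ↔ g ∈ tame p ∧ c g = 0 := fun {g} => by
    rw [hK, Subgroup.mem_map]
    constructor
    · rintro ⟨x, hx, rfl⟩
      exact ⟨x.2, Multiplicative.ofAdd.injective ((MonoidHom.mem_ker.mp hx).trans ofAdd_zero.symm)⟩
    · rintro ⟨hg, hc⟩
      exact ⟨⟨g, hg⟩, MonoidHom.mem_ker.mpr (by show Multiplicative.ofAdd (c g) = 1; rw [hc]; rfl),
        rfl⟩
  have hKtame : K ≤ tame p := fun g hg => (hKmem.mp hg).1
  have hHK : H ≤ K := fun g hg => hKmem.mpr ⟨h.le hg, h.zero g hg⟩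
  have hKlev : IsLevel p K :=
    h.level.of_le hHK (hKtame.trans (isLevel_fixer (p := p) (rad p)).le)
  have hindex : K.relIndex (inG p) = p * e₀ p := by
    rw [← Subgroup.relIndex_mul_relIndex K (tame p) (inG p) hKtame (isLevel_fixer _).le]
    have h1 : (tame p).relIndex (inG p) = e₀ p := by
      rw [← (isUnif_rad p).card_orb_eq, card_orb_rad]
    rw [h1]
    congr 1
    rw [Subgroup.relIndex, hK, Subgroup.subgroupOf,
      Subgroup.comap_map_eq_self_of_injective (tame p).subtype_injective]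
    refine index_ker_eq_of_ne_zero φ fun hbot => hc0 fun g hg => ?_
    have : φ ⟨g, hg⟩ ∈ φ.range := ⟨_, rfl⟩
    rw [hbot, Subgroup.mem_bot] at this
    exact Multiplicative.ofAdd.injective (this.trans ofAdd_zero.symm)
  have hϖq : nrm p ϖ ^ K.relIndex (inG p) = (p : ℝ)⁻¹ := by
    rw [hindex, pow_mul, hϖp, nrm_rad_pow]
  have v : IsUnif (p := p) K ϖ :=
    ⟨hKlev, fun g hg => hfix g (hKmem.mp hg).1 (hKmem.mp hg).2, hϖq⟩
  set T := orb p ϖ
  -- the conjugates moved by `c` are closer to `ϖ`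
  obtain ⟨A, hA, hAcard, hArep⟩ := h.exists_conjugates (ϖ := ϖ) hc0
    fun g hg h' => hKmem.mp (v.exists_mem_of_orb hg h')
  have hAle : ∀ r ∈ A, nrm p (ϖ - r) ≤ nrm p ϖ ^ (s + 1) := by
    intro r hr
    obtain ⟨g, hg, hcg, rfl⟩ := hArep r hr
    rw [nrm_sub_comm]
    exact hmove g hg hcg
  have hne : (T.erase ϖ).Nonempty := by
    have hA0 : 0 < A.card := by rw [hAcard]; have := hp.out.two_le; omega
    exact (Finset.card_pos.mp hA0).mono hA
  have hle : ∀ r ∈ T.erase ϖ, nrm p (ϖ - r) ≤ nrm p ϖ ^ 1 := fun r hr => by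
    rw [pow_one]
    exact nrm_sub_le_of_le p le_rfl (nrm_of_mem_orb (Finset.mem_erase.mp hr).2).le
  have hcardT : (T.erase ϖ \ A).card = p * e₀ p - p := by
    rw [Finset.card_sdiff, Finset.inter_eq_left.mpr hA, Finset.card_erase_of_mem (self_mem_orb ϖ),
      v.card_orb_eq, hindex, hAcard]
    have := hp.out.two_le; omega
  have hqpos := v.pos
  -- so the break of `ϖ` is beyond the bound
  have hbrk : brk p ϖ ≤ nrm p ϖ ^ ((p * e₀ p - p) + (p - 1) * (s + 1) + (s + 1)) := by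
    obtain ⟨r, hr⟩ : A.Nonempty := Finset.card_pos.mp (by rw [hAcard]; have := hp.out.two_le; omega)
    rw [brk, ← Finset.prod_sdiff hA, pow_add, pow_add]
    refine mul_le_mul (mul_le_mul ?_ ?_ (Finset.prod_nonneg fun r _ => nrm_nonneg p _)
      (pow_nonneg hqpos.le _)) ((gap_le (hA hr)).trans (hAle r hr)) ?_
      (mul_nonneg (pow_nonneg hqpos.le _) (pow_nonneg hqpos.le _))
    · calc _ ≤ ∏ _r ∈ T.erase ϖ \ A, nrm p ϖ ^ 1 := Finset.prod_le_prod (fun r _ => nrm_nonneg p _)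
            fun r hr => hle r (Finset.mem_sdiff.mp hr).1
        _ = _ := by rw [Finset.prod_const, hcardT, pow_one]
    · calc _ ≤ ∏ _r ∈ A, nrm p ϖ ^ (s + 1) :=
            Finset.prod_le_prod (fun r _ => nrm_nonneg p _) hAle
        _ = _ := by rw [Finset.prod_const, hAcard, ← pow_mul, mul_comm]
    · obtain ⟨r', hr', he⟩ := exists_gap_eq hne
      exact he ▸ nrm_nonneg p _
  refine hbdd K hHK ϖ v hne ?_
  rw [break_exponent, pow_add, show nrm p ϖ ^ (p * e₀ p) = (p : ℝ)⁻¹ by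
    rw [← hindex]; exact hϖq] at hbrk
  have hps1 : 1 ≤ p * s := Nat.one_le_iff_ne_zero.mpr
    (Nat.mul_ne_zero hp.out.ne_zero (by omega))
  have h1 : (p : ℝ) * (brk p ϖ / nrm p ϖ) ≤ nrm p ϖ ^ (p * s - 1) := by
    have hp0 : (0 : ℝ) < p := zero_lt_one.trans (one_lt_cast p)
    rw [← mul_div_assoc, div_le_iff₀ hqpos, ← pow_succ, Nat.sub_add_cancel hps1]
    calc (p : ℝ) * brk p ϖ ≤ (p : ℝ) * ((p : ℝ)⁻¹ * nrm p ϖ ^ (p * s)) :=
          mul_le_mul_of_nonneg_left hbrk hp0.le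
      _ = _ := by rw [← mul_assoc, mul_inv_cancel₀ hp0.ne', one_mul]
  refine (pow_le_pow_left₀ (mul_nonneg (Nat.cast_nonneg p) (div_nonneg (brk_pos hne).le hqpos.le))
    h1 _).trans_lt ?_
  rw [← hϖq, ← pow_mul, hindex, e₀_eq]
  refine pow_lt_pow_right_of_lt_one₀ hqpos v.lt_one ?_
  exact bound_lt_break hs

/-! ### Unit radicals -/

/-- A radical whose valuation is prime to `p` gives, with a power of `rad p`, a uniformiser. -/
private theorem exists_zpow_unif {x : QBar} {k : ℤ} (hk : nrm p x ^ p = nrm p (rad p) ^ k)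
    (hpk : ¬ (p : ℤ) ∣ k) : ∃ a b : ℤ, nrm p (x ^ a * rad p ^ b) ^ p = nrm p (rad p) := by
  obtain ⟨a, b, hab⟩ : ∃ a b : ℤ, a * k + b * p = 1 :=
    ((Nat.prime_iff_prime_int.mp hp.out).coprime_iff_not_dvd.mpr hpk).symm
  have hz : ∀ (y : QBar) (n : ℤ), nrm p (y ^ n) = nrm p y ^ n := fun y n => by
    simp [nrm, map_zpow₀, norm_zpow]
  refine ⟨a, b, ?_⟩
  rw [nrm_mul, hz, hz, mul_pow, ← zpow_natCast, ← zpow_natCast, ← zpow_mul, mul_comm a,
    zpow_mul, zpow_natCast, hk, ← zpow_mul, ← zpow_mul, ← zpow_add₀ (isUnif_rad p).pos.ne']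
  rw [show k * a + b * p = 1 by rw [← hab]; ring, zpow_one]

/-- Powers of the chosen root of unity are congruent to one modulo `rad p ^ (p + 1)`. -/
private theorem nrm_zp_pow_sub_one_le (j : ℕ) : nrm p (zp p ^ j - 1) ≤ nrm p (rad p) ^ (p + 1) := by
  rw [← nrm_root_sub_one p (zp_spec p), ← geom_sum_mul, nrm_mul]
  exact mul_le_of_le_one_left (nrm_nonneg p _) (nrm_sum_le p _ _ zero_le_one fun l _ => by
    rw [nrm_pow, nrm_root p hp.out.pos (zp_spec p).pow_eq_one, one_pow])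

/-- If `α ^ p - 1` has absolute value above the depth of the `p`-th roots of unity, `α - 1` carries
its `p`-th root. -/
private theorem nrm_sub_one_pow_eq {α : QBar} {i : ℕ} (hi : nrm p (α ^ p - 1) = nrm p (rad p) ^ i)
    (hiN : i < p * (p + 1)) :
    nrm p (α - 1) ^ p = nrm p (rad p) ^ i ∧ α - 1 ≠ 0 := by
  classical
  have u := isUnif_rad p
  set q := nrm p (rad p)
  set β := α - 1 with hβ
  have hprod := congrArg (eval α) (X_pow_sub_C_eq_prod (zp_spec p) hp.out.pos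
    (one_pow p : (1 : QBar) ^ p = 1))
  rw [eval_sub, eval_pow, eval_X, eval_C, eval_prod] at hprod
  simp only [eval_sub, eval_X, eval_C, mul_one] at hprod
  have hdist : ∀ j : ℕ, nrm p (1 - zp p ^ j) ≤ q ^ (p + 1) := fun j => by
    rw [nrm_sub_comm]; exact nrm_zp_pow_sub_one_le j
  have hbig : q ^ (p + 1) < nrm p β := by
    by_contra hle
    rw [not_lt] at hle
    have : nrm p (α ^ p - 1) ≤ (q ^ (p + 1)) ^ p := by
      rw [hprod, nrm_prod]
      calc _ ≤ ∏ _j ∈ Finset.range p, q ^ (p + 1) :=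
          Finset.prod_le_prod (fun _ _ => nrm_nonneg p _) fun j _ => by
            rw [show α - zp p ^ j = β + (1 - zp p ^ j) by rw [hβ]; ring]
            exact nrm_add_le_of_le p hle (hdist j)
        _ = _ := by simp
    rw [hi, ← pow_mul, pow_le_pow_iff_right_of_lt_one₀ u.pos u.lt_one, mul_comm] at this
    omega
  have hβp : nrm p β ^ p = q ^ i := by
    rw [← hi, hprod, nrm_prod, Finset.prod_congr rfl fun j _ => ?_]
    · rw [Finset.prod_const, Finset.card_range]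
    rw [show α - zp p ^ j = β + (1 - zp p ^ j) by rw [hβ]; ring]
    exact nrm_add_eq_of_lt p ((hdist j).trans_lt hbig)
  have hβ0 : β ≠ 0 := fun h0 => by
    rw [h0, nrm_zero] at hbig
    exact (pow_nonneg (nrm_nonneg p _) (p + 1)).not_gt hbig
  exact ⟨hβp, hβ0⟩

/-- A radical congruent to one modulo `p`, for homomorphisms obeying the bound. -/
theorem IsTameHom.exists_unit_radical {H : Subgroup GQ} {c : GQ → ZMod p} (h : IsTameHom p H c)
    (hbdd : IsBdd p H) :
    ∃ α : QBar, IsEigen p c α ∧ nrm p (α ^ p - 1) ≤ nrm p (rad p) ^ e₀ p := by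
  classical
  by_cases hc0 : ∀ g ∈ tame p, c g = 0
  · refine ⟨1, ⟨one_ne_zero, fun g hg => by simp [hc0 g hg]⟩, ?_⟩
    rw [one_pow, sub_self, nrm_zero]
    exact pow_nonneg (nrm_nonneg p _) _
  obtain ⟨α₀, hα₀, hact⟩ := h.exists_radical
  obtain ⟨α, hα, hcases⟩ := IsEigen.exists_normal (⟨hα₀, hact⟩ : IsEigen p c α₀)
  have u := isUnif_rad p
  set q := nrm p (rad p)
  have heN : e₀ p ≤ p * (p + 1) := by
    rw [e₀_eq, mul_comm p]; exact Nat.mul_le_mul_left _ (Nat.sub_le p 1)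
  rcases hcases with ⟨k, hpk, hk⟩ | ⟨i, hiN, hpi, hi⟩ | hdeep
  · exfalso
    obtain ⟨a, b, hϖp⟩ := exists_zpow_unif (x := α) (k := k) (by rw [← nrm_pow]; exact hk) hpk
    set ϖ := α ^ a * rad p ^ b with hϖ
    have hact' : ∀ g ∈ tame p, g ϖ = (zp p ^ (c g).val) ^ a * ϖ := fun g hg => by
      rw [hϖ, map_mul, map_zpow₀, hα.2 g hg, mul_zpow, rad_zpow_fixed hg, mul_assoc]
    refine h.false_of_break hbdd hc0 (s := p * (p + 1)) hϖp ?_ (fun g hg hcg => ?_)
      fun g hg hcg => ?_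
    · have := hp.out.two_le; nlinarith
    · rw [hact' g hg, hcg, ZMod.val_zero, pow_zero, one_zpow, one_mul]
    · rw [hact' g hg, ← sub_one_mul, nrm_mul, pow_succ]
      refine mul_le_mul_of_nonneg_right ?_ (nrm_nonneg p _)
      rw [pow_mul, hϖp]
      exact (nrm_zpow_sub_one_le (by rw [nrm_pow, nrm_root p hp.out.pos
        (zp_spec p).pow_eq_one, one_pow]) a).trans (nrm_zp_pow_sub_one_le _)
  · rcases le_or_gt (e₀ p) i with hie | hie
    · exact ⟨α, hα, hi.trans_le (pow_le_pow_of_le_one (nrm_nonneg p _) u.lt_one.le hie)⟩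
    exfalso
    obtain ⟨hβp, hβ0⟩ := nrm_sub_one_pow_eq hi hiN
    obtain ⟨a, b, hϖp⟩ := exists_zpow_unif (x := α - 1) (k := i) (by rw [zpow_natCast]; exact hβp)
      fun hd => hpi (Int.natCast_dvd_natCast.mp hd)
    set β := α - 1 with hβ
    set ϖ := β ^ a * rad p ^ b with hϖ
    have hgβ : ∀ g ∈ tame p, g β = zp p ^ (c g).val * α - 1 := fun g hg => by
      rw [hβ, map_sub, hα.2 g hg, map_one]
    have hiN' : i < p * (p + 1) := hiN
    have hi0 : i ≠ 0 := fun h0 => hpi (h0 ▸ dvd_zero p)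
    have hα1 : nrm p α = 1 := by
      have h1 : nrm p (α ^ p) = 1 := by
        rw [show α ^ p = 1 + (α ^ p - 1) by ring, nrm_add_eq_of_lt p, nrm_one]
        rw [nrm_one, hi]
        exact pow_lt_one₀ u.pos.le u.lt_one hi0
      rw [nrm_pow] at h1
      exact (pow_eq_one_iff_of_nonneg (nrm_nonneg p α) hp.out.ne_zero).mp h1
    refine h.false_of_break hbdd hc0 (s := p * (p + 1) - i) hϖp ?_ (fun g hg hcg => ?_)
      fun g hg hcg => ?_
    · have h3 : i + 1 ≤ e₀ p := hie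
      rw [e₀_eq] at h3
      obtain ⟨r, hr⟩ : ∃ r, p = r + 1 := ⟨p - 1, by have := hp.out.pos; omega⟩
      rw [hr, Nat.add_sub_cancel] at h3
      rw [hr]
      refine Nat.le_sub_of_add_le ?_
      nlinarith
    · rw [hϖ, map_mul, map_zpow₀, hgβ g hg, hcg, ZMod.val_zero, pow_zero, one_mul, ← hβ,
        rad_zpow_fixed hg]
    · have hw : nrm p (g β / β) = 1 := by
        rw [nrm_div, nrm_map_of_mem_inG p ((mem_tame p).mp hg).1, div_self (nrm_pos p hβ0).ne']
      rw [show g ϖ - ϖ = ((g β / β) ^ a - 1) * ϖ by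
        rw [hϖ, map_mul, map_zpow₀, rad_zpow_fixed hg, div_zpow]
        field_simp [zpow_ne_zero a hβ0], nrm_mul, pow_succ]
      refine mul_le_mul_of_nonneg_right ((nrm_zpow_sub_one_le hw a).trans ?_) (nrm_nonneg p _)
      have hnum : g β - β = (zp p ^ (c g).val - 1) * α := by
        rw [hgβ g hg, hβ]; ring
      rw [div_sub_one hβ0, nrm_div, hnum, nrm_mul, hα1, mul_one]
      -- compare `p`-th powers
      refine (pow_le_pow_iff_left₀ (div_nonneg (nrm_nonneg p _) (nrm_nonneg p _))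
        (pow_nonneg (nrm_nonneg p _) _) hp.out.ne_zero).mp ?_
      rw [div_pow, hβp, ← pow_mul, mul_comm _ p, pow_mul, hϖp, div_le_iff₀ (pow_pos u.pos i),
        ← pow_add, Nat.sub_add_cancel hiN'.le]
      calc nrm p (zp p ^ (c g).val - 1) ^ p ≤ (q ^ (p + 1)) ^ p := by
            exact pow_le_pow_left₀ (nrm_nonneg p _) (nrm_zp_pow_sub_one_le _) _
        _ = _ := by rw [← pow_mul, mul_comm]
  · exact ⟨α, hα, hdeep.trans (pow_le_pow_of_le_one (nrm_nonneg p _) u.lt_one.le heN)⟩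

end Fermat.Agent.CFT.Flat
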