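import Fermat.Agent.CFT.Flat.Count
import Fermat.Agent.Deform.Matrix

/-!
# Counting adjoint classes with bounded ramification

The two normal forms: an upper triangular decomposition group, and tame inertia acting by a
diagonal matrix.

The counts are `natCard_le_borel` and `natCard_le_torus`.
-/

set_option autoImplicit false

noncomputable section

namespace Fermat.Agent.CFT.Flat

open Fermat.Agent.Arith Fermat.Agent.Deform Module

variable {p : ℕ} [hp : Fact p.Prime]
variable {k : Type} [Field k] [Finite k] [Algebra (ZMod p) k]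

/-! ### Local classes and tame characters -/

/-- An adjoint cocycle on the decomposition group obeying the ramification bound. -/
structure IsLocalClass (p : ℕ) [Fact p.Prime] (r : GQ →* M2 k) (c : GQ → M2 k) : Prop where
  add : ∀ g ∈ decG p, ∀ h ∈ decG p, c (g * h) = r g * c h * r g⁻¹ + c g
  trace : ∀ g, (c g).trace = 0
  off : ∀ g, g ∉ decG p → c g = 0
  bdd : ∃ H : Subgroup GQ, IsLevel p H ∧ H ≤ tame p ∧ IsBdd p H ∧ ∀ h ∈ H, c h = 0
  level : ∃ L : IntermediateField ℚ QBar, FiniteDimensional ℚ L ∧ Normal ℚ L ∧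
    ∀ g ∈ L.fixingSubgroup, g ∈ decG p → c g = 0

omit [Finite k] in
theorem charP_of_algebra : CharP k p :=
  charP_of_injective_algebraMap (algebraMap (ZMod p) k).injective p

omit [Finite k] in
/-- A character of finite level of the decomposition group on inertia. -/
theorem char_tame {χ : GQ → k} (hmul : ∀ g ∈ decG p, ∀ h ∈ decG p, χ (g * h) = χ g * χ h)
    (h1 : χ 1 = 1) (L : IntermediateField ℚ QBar) [FiniteDimensional ℚ L] [Normal ℚ L]
    (hL : ∀ g ∈ L.fixingSubgroup, g ∈ decG p → χ g = 1) :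
    (∀ g ∈ tame p, χ g = 1) ∧ ∀ g ∈ inG p, χ g ^ (p - 1) = 1 := by
  have : CharP k p := charP_of_algebra
  have : IsGalois ℚ L := ⟨⟩
  have hnormal : L.fixingSubgroup.Normal := (InfiniteGalois.normal_iff_isGalois L).mpr ‹_›
  set H := inG p ⊓ L.fixingSubgroup
  have hH : IsLevel p H := ⟨inf_le_left, L, inferInstance, le_rfl⟩
  have hnorm : ∀ g ∈ inG p, ∀ h ∈ H, g⁻¹ * h * g ∈ H := fun g hg h hh =>
    ⟨(inG p).mul_mem ((inG p).mul_mem ((inG p).inv_mem hg) hh.1) hg, by
      simpa using hnormal.conj_mem h hh.2 g⁻¹⟩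
  have hI := inG_le_decG p
  let χh : inG p →* k :=
    { toFun := fun g => χ g
      map_one' := h1
      map_mul' := fun a b => hmul _ (hI a.2) _ (hI b.2) }
  have hker : ∀ (h : GQ) (hh : h ∈ H), χh ⟨h, hH.le hh⟩ = 1 := fun h hh => hL h hh.2 (hI hh.1)
  obtain ⟨π, z, -, hzroot, -, -, -, hwild, hfr⟩ := exists_tame_char p hH hnorm
  -- On wild inertia the character is unipotent in characteristic `p`, hence trivial.
  have hz1 : ∀ g, z g = 1 → χh g = 1 := fun g hg => by
    obtain ⟨a, ha⟩ := hwild g hg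
    have h2 : χh g ^ p ^ a = 1 := by rw [← map_pow]; exact hker _ ha
    have h3 : (χh g - 1) ^ p ^ a = 0 := by rw [sub_pow_char_pow, h2, one_pow, sub_self]
    exact sub_eq_zero.mp (pow_eq_zero_iff (pow_ne_zero a hp.out.ne_zero) |>.mp h3)
  obtain ⟨φ, hφ, -, hfrob⟩ := exists_frobenius_rad p
  -- Frobenius raises the tame character to the `p`-th power and does not change `χ`.
  have hexp : ∀ g, χh g ^ (p - 1) = 1 := by
    intro g
    have hgI : φ * (g : GQ) * φ⁻¹ ∈ inG p := by
      have := conj_mem_inG (p := p) ((decG p).inv_mem hφ) g.2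
      rwa [inv_inv] at this
    have h2 := hfr φ hφ hfrob g ⟨_, hgI⟩ rfl
    have h3 : χh ⟨_, hgI⟩ = χh g := by
      show χ _ = χ g
      rw [hmul _ ((decG p).mul_mem hφ (hI g.2)) _ ((decG p).inv_mem hφ), hmul _ hφ _ (hI g.2),
        mul_right_comm, ← hmul _ hφ _ ((decG p).inv_mem hφ), mul_inv_cancel, h1, one_mul]
    have h4 : z ((g ^ p)⁻¹ * ⟨_, hgI⟩) = 1 := by
      have h5 : z ((g ^ p)⁻¹) * z (g ^ p) = 1 := by rw [← map_mul, inv_mul_cancel, map_one]
      rw [map_mul, h2, ← map_pow, h5]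
    have h6 : χh g = χh g ^ p := by
      conv_lhs => rw [← h3]
      rw [← mul_one (χh g ^ p), ← hz1 _ h4, ← map_pow, ← map_mul, mul_inv_cancel_left]
    have hne : χh g ≠ 0 := fun h0 => by
      have h7 : χh g * χh g⁻¹ = 1 := by rw [← map_mul, mul_inv_cancel, map_one]
      rw [h0, zero_mul] at h7
      exact zero_ne_one h7
    refine mul_left_cancel₀ hne ?_
    rw [mul_pow_sub_one hp.out.ne_zero, mul_one, ← h6]
  refine ⟨fun g hg => eq_one_of_mem_tame p χh hH hnorm hker (fun g => ?_) hg,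
    fun g hg => hexp ⟨g, hg⟩⟩
  rw [e₀_eq, mul_comm, pow_mul, hexp, one_pow]

omit [Finite k] [Algebra (ZMod p) k] in
/-- The determinant at a tame generator. -/
theorem iota_det {r : GQ →* M2 k}
    (hcyc : ∀ (σ : GQ) (n : ℕ), (∀ μ : QBar, μ ^ p = 1 → σ μ = μ ^ n) → (r σ).det = (n : k))
    (ι : k →+* Res p) {τ : GQ} (hτ : τ ∈ inG p) :
    ι (r τ).det = thetaBar p τ ^ (p + 1) := by
  have : NeZero p := ⟨hp.out.ne_zero⟩
  obtain ⟨n, -, hn⟩ := (zp_spec p).eq_pow_of_pow_eq_one (ξ := τ (zp p))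
    (by rw [← map_pow, (zp_spec p).pow_eq_one, map_one])
  rw [hcyc τ n fun μ hμ => by
    obtain ⟨i, -, rfl⟩ := (zp_spec p).eq_pow_of_pow_eq_one hμ
    rw [map_pow, ← hn, ← pow_mul, ← pow_mul, mul_comm], map_natCast]
  have hθ1 := (nrm_root p (e₀_pos p) (theta_pow p τ)).le
  have h2 : nrm p (theta p τ ^ (p + 1)) ≤ 1 := by
    rw [Flat.nrm_pow]; exact pow_le_one₀ (nrm_nonneg p _) hθ1
  rw [thetaBar, ← res_pow p hθ1, ← res_natCast p]
  exact (res_eq_iff p (nrm_natCast_le_one p _) h2).mpr (cyclo_congr p (zp_spec p) hτ hn.symm)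

/-- The powers of the tame character meeting an element of the prime field. -/
theorem eq_top_level {τ : GQ} (hτprim : IsPrimitiveRoot (theta p τ) (e₀ p)) {x : Res p}
    (hx : x ^ (p - 1) = 1) {m : ℕ} (hm1 : 1 ≤ m) (hm : m ≤ p + 1)
    (he : x = thetaBar p τ ^ m) : m = p + 1 := by
  have h := (isPrimitiveRoot_thetaBar p hτprim).dvd_of_pow_eq_one (m * (p - 1))
    (by rw [pow_mul, ← he, hx])
  rw [e₀_eq] at h
  have h2 := Nat.le_of_dvd hm1
    (Nat.dvd_of_mul_dvd_mul_right (by have := hp.out.two_le; omega) h)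
  omega

omit [Finite k] [Algebra (ZMod p) k] in
theorem natCard_le_map_mul (T : AddSubgroup (GQ → M2 k)) [Finite T]
    (f : (GQ → M2 k) →+ (GQ → k)) :
    Nat.card T ≤ Nat.card (T.map f) * Nat.card (T ⊓ f.ker : AddSubgroup (GQ → M2 k)) := by
  set g := f.addSubgroupMap T
  have hs : Function.Surjective g := AddMonoidHom.addSubgroupMap_surjective f T
  have : Finite (T ⊓ f.ker : AddSubgroup (GQ → M2 k)) := Finite.of_injective
    (fun c : (T ⊓ f.ker : AddSubgroup (GQ → M2 k)) => (⟨c.1, c.2.1⟩ : T))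
    fun a b h => Subtype.ext (congrArg (fun c : T => (c : GQ → M2 k)) h)
  have h2 : Nat.card g.ker ≤ Nat.card (T ⊓ f.ker : AddSubgroup (GQ → M2 k)) :=
    Nat.card_le_card_of_injective
      (fun c => ⟨(c.1 : GQ → M2 k), c.1.2,
        congrArg (fun y : T.map f => (y : GQ → k)) c.2⟩) fun a b h => Subtype.ext (Subtype.ext
      (congrArg (fun c : (T ⊓ f.ker : AddSubgroup (GQ → M2 k)) => (c : GQ → M2 k)) h))
  rw [AddSubgroup.card_eq_card_quotient_mul_card_addSubgroup g.ker,
    Nat.card_congr (QuotientAddGroup.quotientKerEquivOfSurjective g hs).toEquiv]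
  exact Nat.mul_le_mul_left _ h2

/-! ### One matrix entry -/

/-- The entry map. -/
def entryHom (i j : Fin 2) : (GQ → M2 k) →+ (GQ → k) :=
  AddMonoidHom.mk' (fun c g => c g i j) fun _ _ => funext fun _ => rfl

variable {ι : k →+* Res p} {τ : GQ}

theorem natCard_k : Nat.card k = p ^ finrank (ZMod p) k := by
  have : FiniteDimensional (ZMod p) k := Module.Finite.of_finite
  rw [Module.natCard_eq_pow_finrank (K := ZMod p), Nat.card_zmod]

open scoped Classical in
/-- One piece with coefficients in a character. -/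
theorem natCard_piece_le {χ : GQ → k}
    (hmul : ∀ g ∈ decG p, ∀ h ∈ decG p, χ (g * h) = χ g * χ h)
    (htame : ∀ g ∈ tame p, χ g = 1) (hexp : χ τ ^ (p - 1) = 1)
    (T : AddSubgroup (GQ → k)) [Finite T]
    (hT : ∀ c ∈ T, (∀ g ∈ decG p, ∀ h ∈ decG p, c (g * h) = c g + χ g * c h) ∧
      (∀ g, g ∉ decG p → c g = 0) ∧
      (∃ H : Subgroup GQ, IsLevel p H ∧ H ≤ tame p ∧ IsBdd p H ∧ ∀ h ∈ H, c h = 0) ∧
      ∃ L : IntermediateField ℚ QBar, FiniteDimensional ℚ L ∧ Normal ℚ L ∧
        ∀ g ∈ L.fixingSubgroup, g ∈ decG p → c g = 0)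
    (hτ : τ ∈ inG p) (hτprim : IsPrimitiveRoot (theta p τ) (e₀ p))
    (hgen : ∀ g ∈ inG p, ∃ i : ℕ, (τ ^ i)⁻¹ * g ∈ tame p) {a₀ : k}
    (ha₀ : ι a₀ = thetaBar p τ ^ (p + 1)) :
    Nat.card T ≤ Nat.card k * (if χ τ = a₀ then Nat.card k else 1) := by
  set ρ : GQ → Module.End k k := fun g => χ g • 1
  have hρ : IsTameAction p ρ := ⟨fun g hg => by simp [ρ, htame g hg], fun g hg h hh => by
    simp only [ρ, hmul g hg h hh, smul_mul_assoc, one_mul, smul_smul]⟩
  have hcoc : ∀ c ∈ T, IsBddCoc p ρ c := fun c hc => by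
    obtain ⟨h1, h2, h3, h4⟩ := hT c hc
    exact ⟨fun g hg h hh => by rw [h1 g hg h hh]; simp [ρ], h2, h3, h4⟩
  refine (natCard_le_of_isBddCoc hρ T hcoc ι hτ hτprim hgen (η := Unit)
    (B := Basis.singleton Unit k) (lam := fun _ => χ τ) fun w => by simp [ρ]).trans
    (Nat.mul_le_mul_left _ ?_)
  set f := finrank (ZMod p) k
  -- Only the layer `j = 0` is hit, and only if `χ τ = a₀`.
  have hhit : ∀ j ∈ (Finset.range (p + 1)).erase 1, 0 < hitCount p ι τ (χ τ) (p + 1 - j) →
      j = 0 ∧ χ τ = a₀ := by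
    intro j hj hpos
    rw [Finset.mem_erase, Finset.mem_range] at hj
    obtain ⟨i, hi⟩ := Finset.card_pos.mp hpos
    have he := (Finset.mem_filter.mp hi).2
    have hfix : (χ τ) ^ p ^ i = χ τ := by
      have hp' : χ τ ^ p = χ τ := by rw [← mul_pow_sub_one hp.out.ne_zero, hexp, mul_one]
      clear hi he
      induction i with
      | zero => simp
      | succ i ih => rw [pow_succ, pow_mul, ih, hp']
    rw [← map_pow, hfix] at he
    have hm := eq_top_level hτprim (x := ι (χ τ)) (by rw [← map_pow, hexp, map_one])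
      (by omega) (by omega) he
    rw [hm, ← ha₀] at he
    exact ⟨by omega, ι.injective he⟩
  split_ifs with hχ
  · rw [natCard_k (p := p)]
    refine Nat.pow_le_pow_right hp.out.pos ?_
    simp only [Fintype.sum_unique]
    rw [← Finset.sum_subset (s₁ := ({0} : Finset ℕ)) (by simp [Finset.subset_iff])
      (fun j hj hj0 => ?_), Finset.sum_singleton]
    · exact (Finset.card_filter_le _ _).trans (Finset.card_range f).le
    · by_contra hne
      exact hj0 (Finset.mem_singleton.mpr (hhit j hj (Nat.pos_of_ne_zero hne)).1)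
  · rw [Finset.sum_eq_zero, pow_zero]
    intro j hj
    simp only [Fintype.sum_unique]
    by_contra hne
    exact hχ (hhit j hj (Nat.pos_of_ne_zero hne)).2

open scoped Classical in
/-- One matrix entry with coefficients in a character. -/
theorem natCard_entry_le {r : GQ →* M2 k} {χ : GQ → k} (i j : Fin 2)
    (hmul : ∀ g ∈ decG p, ∀ h ∈ decG p, χ (g * h) = χ g * χ h)
    (htame : ∀ g ∈ tame p, χ g = 1) (hexp : χ τ ^ (p - 1) = 1)
    (T : AddSubgroup (GQ → M2 k)) [Finite T] (hT : ∀ c ∈ T, IsLocalClass p r c)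
    (hrel : ∀ c ∈ T, ∀ g ∈ decG p, ∀ h ∈ decG p, c (g * h) i j = c g i j + χ g * c h i j)
    (hτ : τ ∈ inG p) (hτprim : IsPrimitiveRoot (theta p τ) (e₀ p))
    (hgen : ∀ g ∈ inG p, ∃ n : ℕ, (τ ^ n)⁻¹ * g ∈ tame p) {a₀ : k}
    (ha₀ : ι a₀ = thetaBar p τ ^ (p + 1)) :
    Nat.card (T.map (entryHom i j)) ≤ Nat.card k * (if χ τ = a₀ then Nat.card k else 1) := by
  have : Finite (T.map (entryHom i j)) :=
    Finite.of_surjective _ (AddMonoidHom.addSubgroupMap_surjective (entryHom i j) T)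
  refine natCard_piece_le (ι := ι) (χ := χ) hmul htame hexp (T.map (entryHom i j)) ?_ hτ hτprim
    hgen ha₀
  · rintro _ ⟨c, hc, rfl⟩
    refine ⟨fun g hg h hh => hrel c hc g hg h hh, fun g hg => ?_, ?_, ?_⟩
    · show c g i j = 0
      rw [(hT c hc).off g hg]; rfl
    · obtain ⟨H, h1, h2, h3, h4⟩ := (hT c hc).bdd
      exact ⟨H, h1, h2, h3, fun h hh => by show c h i j = 0; rw [h4 h hh]; rfl⟩
    · obtain ⟨L', h1, h2, h3⟩ := (hT c hc).level
      exact ⟨L', h1, h2, fun g hg hgD => by show c g i j = 0; rw [h3 g hg hgD]; rfl⟩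

omit [Algebra (ZMod p) k] in
/-- An entry which is a multiple of a fixed function on the decomposition group takes at most
`#k` values. -/
private theorem natCard_map_entry_le (i j : Fin 2) (T : AddSubgroup (GQ → M2 k))
    (hoff : ∀ c ∈ T, ∀ g, g ∉ decG p → c g = 0) (F : GQ → k)
    (hF : ∀ c ∈ T, ∃ x : k, ∀ g ∈ decG p, c g i j = x * F g) :
    Nat.card (T.map (entryHom i j)) ≤ Nat.card k := by
  classical
  choose x hx using hF
  refine Nat.card_le_card_of_injective (fun c => x _ (Classical.choose_spec c.2).1) ?_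
  intro c c' h
  refine Subtype.ext ?_
  obtain ⟨hc, he⟩ := Classical.choose_spec c.2
  obtain ⟨hc', he'⟩ := Classical.choose_spec c'.2
  rw [← he, ← he']
  funext g
  show Classical.choose c.2 g i j = Classical.choose c'.2 g i j
  by_cases hg : g ∈ decG p
  · rw [hx _ hc g hg, hx _ hc' g hg]
    simp only at h
    rw [h]
  · rw [hoff _ hc g hg, hoff _ hc' g hg]

omit [Finite k] [Algebra (ZMod p) k] in
/-- Classes of trace zero whose diagonal and lower left entries vanish are told apart by the upper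
right entry. -/
private theorem natCard_le_upper (T : AddSubgroup (GQ → M2 k)) [Finite T]
    (h00 : ∀ c ∈ T, ∀ g, c g 0 0 = 0) (h10 : ∀ c ∈ T, ∀ g, c g 1 0 = 0)
    (h11 : ∀ c ∈ T, ∀ g, c g 1 1 = -c g 0 0) :
    Nat.card T ≤ Nat.card (T.map (entryHom 0 1)) := by
  have hinj : Function.Injective ((entryHom (k := k) 0 1).addSubgroupMap T) := by
    intro c c' h
    refine Subtype.ext (funext fun g => ?_)
    have h01 : c.1 g 0 1 = c'.1 g 0 1 :=
      congrFun (congrArg (fun y : T.map (entryHom 0 1) => (y : GQ → k)) h) g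
    ext i j
    fin_cases i <;> fin_cases j
    · exact (h00 _ c.2 g).trans (h00 _ c'.2 g).symm
    · exact h01
    · exact (h10 _ c.2 g).trans (h10 _ c'.2 g).symm
    · show c.1 g 1 1 = c'.1 g 1 1
      rw [h11 _ c.2, h11 _ c'.2, h00 _ c.2, h00 _ c'.2]
  have : Finite (T.map (entryHom 0 1)) :=
    Finite.of_surjective _ (AddMonoidHom.addSubgroupMap_surjective (entryHom 0 1) T)
  exact Nat.card_le_card_of_injective _ hinj

/-! ### The upper triangular case -/

omit [Finite k] [Algebra (ZMod p) k] in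
/-- For odd `p` the determinant at a generator of tame inertia is not one. -/
theorem ne_one_of_iota_eq (hp2 : p ≠ 2) (ι : k →+* Res p)
    (hτprim : IsPrimitiveRoot (theta p τ) (e₀ p)) {a₀ : k}
    (ha₀ : ι a₀ = thetaBar p τ ^ (p + 1)) : a₀ ≠ 1 := fun h1 => by
  rw [h1, map_one] at ha₀
  have h3 := Nat.le_of_dvd (Nat.succ_pos p)
    ((isPrimitiveRoot_thetaBar p hτprim).dvd_of_pow_eq_one _ ha₀.symm)
  rw [e₀_eq] at h3
  have : 2 ≤ p - 1 := by have := hp.out.two_le; omega
  have := Nat.mul_le_mul_left (p + 1) this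
  omega

omit [Finite k] [Algebra (ZMod p) k] in
/-- On an upper triangular group the diagonal entries are multiplicative. -/
private theorem diag_mul {r : GQ →* M2 k} (hup : ∀ g ∈ decG p, r g 1 0 = 0) {g h : GQ}
    (hg : g ∈ decG p) (hh : h ∈ decG p) (i : Fin 2) : r (g * h) i i = r g i i * r h i i := by
  fin_cases i <;>
    simp [Matrix.mul_apply, Fin.sum_univ_two, hup g hg, hup h hh]

omit [Finite k] [Algebra (ZMod p) k] in
/-- On an upper triangular group the diagonal entries do not vanish. -/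
private theorem diag_ne_zero {r : GQ →* M2 k} (hup : ∀ g ∈ decG p, r g 1 0 = 0) {g : GQ}
    (hg : g ∈ decG p) (i : Fin 2) : r g i i ≠ 0 := fun h0 => by
  have h := diag_mul hup hg ((decG p).inv_mem hg) i
  rw [mul_inv_cancel, map_one, h0, zero_mul, Matrix.one_apply_eq] at h
  exact one_ne_zero h

omit [Finite k] in
/-- The ratio of two diagonal entries is a character, trivial on wild inertia and of exponent
`p - 1` on inertia. -/
private theorem diag_ratio_tame {r : GQ →* M2 k} (hr : GaloisFactorsThroughFiniteLevel r)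
    (hup : ∀ g ∈ decG p, r g 1 0 = 0) (i j : Fin 2) :
    (∀ g ∈ decG p, ∀ h ∈ decG p,
      r (g * h) i i / r (g * h) j j = r g i i / r g j j * (r h i i / r h j j)) ∧
    (∀ g ∈ tame p, r g i i / r g j j = 1) ∧
      ∀ g ∈ inG p, (r g i i / r g j j) ^ (p - 1) = 1 := by
  obtain ⟨L₀, hL₀, hL₀'⟩ := hr
  have := hL₀
  have : Normal ℚ QBar := IsAlgClosure.normal ℚ QBar
  set L := IntermediateField.normalClosure ℚ L₀ QBar
  have : FiniteDimensional ℚ L := inferInstance
  have : Normal ℚ L := normalClosure.normal ℚ L₀ QBar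
  have hL : ∀ g ∈ L.fixingSubgroup, r g = 1 := fun g hg =>
    hL₀' g fun x hx => (IntermediateField.mem_fixingSubgroup_iff _ _).mp hg x
      (L₀.le_normalClosure hx)
  have hmul : ∀ g ∈ decG p, ∀ h ∈ decG p,
      r (g * h) i i / r (g * h) j j = r g i i / r g j j * (r h i i / r h j j) :=
    fun g hg h hh => by rw [diag_mul hup hg hh i, diag_mul hup hg hh j, mul_div_mul_comm]
  exact ⟨hmul, char_tame hmul (by simp) L fun g hg _ => by simp [hL g hg]⟩

omit [Finite k] [Algebra (ZMod p) k] in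
/-- The cocycle identity without inverses. -/
private theorem cocycle_mul_eq {r : GQ →* M2 k} {c : GQ → M2 k} (hc : IsLocalClass p r c)
    {g h : GQ} (hg : g ∈ decG p) (hh : h ∈ decG p) :
    c (g * h) * r g = r g * c h + c g * r g := by
  rw [hc.add g hg h hh, add_mul, mul_assoc, ← map_mul, inv_mul_cancel, map_one, mul_one]

omit [Finite k] [Algebra (ZMod p) k] in
/-- The lower left entry is a cocycle for `ψ₂ / ψ₁`. -/
private theorem lower_entry_mul {r : GQ →* M2 k} {c : GQ → M2 k} (hc : IsLocalClass p r c)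
    (hup : ∀ g ∈ decG p, r g 1 0 = 0) {g h : GQ} (hg : g ∈ decG p) (hh : h ∈ decG p) :
    c (g * h) 1 0 = c g 1 0 + r g 1 1 / r g 0 0 * c h 1 0 := by
  have h1 := congrFun (congrFun (cocycle_mul_eq hc hg hh) 1) 0
  simp only [Matrix.add_apply, Matrix.mul_apply, Fin.sum_univ_two, hup g hg, mul_zero,
    add_zero, zero_mul, zero_add] at h1
  field_simp [diag_ne_zero hup hg 0]
  linear_combination h1

omit [Finite k] [Algebra (ZMod p) k] in
/-- With vanishing lower left entry, the diagonal entry is a homomorphism. -/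
private theorem diag_entry_mul {r : GQ →* M2 k} {c : GQ → M2 k} (hc : IsLocalClass p r c)
    (hup : ∀ g ∈ decG p, r g 1 0 = 0) (h10 : ∀ g, c g 1 0 = 0) {g h : GQ} (hg : g ∈ decG p)
    (hh : h ∈ decG p) : c (g * h) 0 0 = c g 0 0 + 1 * c h 0 0 := by
  have h1 := congrFun (congrFun (cocycle_mul_eq hc hg hh) 0) 0
  simp only [Matrix.add_apply, Matrix.mul_apply, Fin.sum_univ_two, hup g hg, mul_zero,
    add_zero, h10] at h1
  refine mul_right_cancel₀ (diag_ne_zero hup hg 0) ?_
  linear_combination h1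

omit [Finite k] [Algebra (ZMod p) k] in
/-- With vanishing diagonal, the upper right entry is a cocycle for `ψ₁ / ψ₂`. -/
private theorem upper_entry_mul {r : GQ →* M2 k} {c : GQ → M2 k} (hc : IsLocalClass p r c)
    (hup : ∀ g ∈ decG p, r g 1 0 = 0) (h00 : ∀ g, c g 0 0 = 0) (h11 : ∀ g, c g 1 1 = -c g 0 0)
    {g h : GQ} (hg : g ∈ decG p) (hh : h ∈ decG p) :
    c (g * h) 0 1 = c g 0 1 + r g 0 0 / r g 1 1 * c h 0 1 := by
  have h1 := congrFun (congrFun (cocycle_mul_eq hc hg hh) 0) 1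
  simp only [Matrix.add_apply, Matrix.mul_apply, Fin.sum_univ_two, h00, h11,
    zero_mul, neg_zero, mul_zero, add_zero, zero_add] at h1
  field_simp [diag_ne_zero hup hg 1]
  linear_combination h1

/-- The arithmetic of the three counts. -/
private theorem borel_product_le {q : ℕ} (hq : 1 ≤ q) (a b : Prop) [Decidable a] [Decidable b] :
    (q * (if b then (if a then 1 else q) else 1)) * (q * (q * (if a then q else 1))) ≤ q ^ 4 := by
  split_ifs
  · exact le_of_eq (by ring)
  · exact le_of_eq (by ring)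
  · exact le_of_eq (by ring)
  · calc q * 1 * (q * (q * 1)) = q ^ 3 := by ring
      _ ≤ q ^ 4 := Nat.pow_le_pow_right hq (by norm_num)

/-- The count when the decomposition group is upper triangular. -/
theorem natCard_le_borel (hp2 : p ≠ 2) {r : GQ →* M2 k}
    (hr : GaloisFactorsThroughFiniteLevel r)
    (hcyc : ∀ (σ : GQ) (n : ℕ), (∀ μ : QBar, μ ^ p = 1 → σ μ = μ ^ n) → (r σ).det = (n : k))
    (hup : ∀ g ∈ decG p, r g 1 0 = 0) (T : AddSubgroup (GQ → M2 k)) [Finite T]
    (hT : ∀ c ∈ T, IsLocalClass p r c)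
    (ι : k →+* Res p) (hτ : τ ∈ inG p) (hτprim : IsPrimitiveRoot (theta p τ) (e₀ p))
    (hgen : ∀ g ∈ inG p, ∃ i : ℕ, (τ ^ i)⁻¹ * g ∈ tame p)
    (hspec : r τ 0 0 / r τ 1 1 = (r τ).det → r τ 1 1 / r τ 0 0 = (r τ).det →
      ∀ c ∈ T, ∃ x : k, ∀ g ∈ decG p, c g 1 0 = x * (1 - r g 1 1 / r g 0 0)) :
    Nat.card T ≤ Nat.card k ^ 4 := by
  classical
  -- the ratios of the diagonal characters
  set η : GQ → k := fun g => r g 0 0 / r g 1 1
  set η' : GQ → k := fun g => r g 1 1 / r g 0 0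
  obtain ⟨hημ, hηt, hηe⟩ := diag_ratio_tame hr hup 0 1
  obtain ⟨hη'μ, hη't, hη'e⟩ := diag_ratio_tame hr hup 1 0
  set a₀ := (r τ).det
  have ha₀ : ι a₀ = thetaBar p τ ^ (p + 1) := iota_det hcyc ι hτ
  have ha₁ : a₀ ≠ 1 := ne_one_of_iota_eq hp2 ι hτprim ha₀
  -- the lower left entry
  have hfib₁ : Nat.card (T.map (entryHom 1 0)) ≤ Nat.card k *
      (if η' τ = a₀ then (if η τ = a₀ then 1 else Nat.card k) else 1) := by
    by_cases hboth : η τ = a₀ ∧ η' τ = a₀
    · rw [if_pos hboth.2, if_pos hboth.1, mul_one]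
      exact natCard_map_entry_le 1 0 T (fun c hc => (hT c hc).off) _ (hspec hboth.1 hboth.2)
    · refine (natCard_entry_le (ι := ι) (χ := η') 1 0 hη'μ hη't (hη'e τ hτ) T hT
        (fun c hc g hg h hh => lower_entry_mul (hT c hc) hup hg hh) hτ hτprim hgen ha₀).trans
        (Nat.mul_le_mul_left _ ?_)
      rw [not_and] at hboth
      by_cases h' : η' τ = a₀
      · rw [if_pos h', if_pos h', if_neg fun h => hboth h h']
      · rw [if_neg h', if_neg h']
  set T₁ := T ⊓ (entryHom (k := k) 1 0).ker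
  have : Finite T₁ := Finite.of_injective (fun c : T₁ => (⟨c.1, c.2.1⟩ : T))
    fun a b h => Subtype.ext (congrArg (fun c : T => (c : GQ → M2 k)) h)
  have h10 : ∀ c ∈ T₁, ∀ g, c g 1 0 = 0 := fun c hc g => congrFun hc.2 g
  have h11 : ∀ c ∈ T, ∀ g, c g 1 1 = -c g 0 0 := fun c hc g => by
    have := (hT c hc).trace g
    rw [Matrix.trace_fin_two] at this
    exact eq_neg_of_add_eq_zero_right this
  have hfib₂ : Nat.card (T₁.map (entryHom 0 0)) ≤ Nat.card k := by
    refine (natCard_entry_le (ι := ι) (χ := fun _ => (1 : k)) 0 0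
      (fun _ _ _ _ => (mul_one 1).symm) (fun _ _ => rfl) (one_pow _) T₁ (fun c hc => hT c hc.1)
      (fun c hc g hg h hh => diag_entry_mul (hT c hc.1) hup (h10 c hc) hg hh)
      hτ hτprim hgen ha₀).trans (by rw [if_neg fun h => ha₁ h.symm, mul_one])
  set T₂ := T₁ ⊓ (entryHom (k := k) 0 0).ker
  have : Finite T₂ := Finite.of_injective (fun c : T₂ => (⟨c.1, c.2.1⟩ : T₁))
    fun a b h => Subtype.ext (congrArg (fun c : T₁ => (c : GQ → M2 k)) h)
  have h00 : ∀ c ∈ T₂, ∀ g, c g 0 0 = 0 := fun c hc g => congrFun hc.2 g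
  have hT₂ : ∀ c ∈ T₂, c ∈ T := fun c hc =>
    (AddSubgroup.mem_inf.mp (AddSubgroup.mem_inf.mp hc).1).1
  have h10' : ∀ c ∈ T₂, ∀ g, c g 1 0 = 0 := fun c hc => h10 c (AddSubgroup.mem_inf.mp hc).1
  have hsplit : Nat.card T ≤ Nat.card (T.map (entryHom 1 0)) *
      (Nat.card (T₁.map (entryHom 0 0)) * Nat.card T₂) :=
    (natCard_le_map_mul T _).trans (Nat.mul_le_mul_left _ (natCard_le_map_mul T₁ _))
  clear_value T₂
  have hcard₃ := natCard_le_upper T₂ h00 h10' fun c hc => h11 c (hT₂ c hc)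
  have hrel₃ : ∀ c ∈ T₂, ∀ g ∈ decG p, ∀ h ∈ decG p,
      c (g * h) 0 1 = c g 0 1 + η g * c h 0 1 := fun c hc g hg h hh =>
    upper_entry_mul (hT c (hT₂ c hc)) hup (h00 c hc) (h11 c (hT₂ c hc)) hg hh
  have hfib₃ : Nat.card T₂ ≤ Nat.card k * (if η τ = a₀ then Nat.card k else 1) :=
    hcard₃.trans (natCard_entry_le (ι := ι) (χ := η) 0 1 hημ
      hηt (hηe τ hτ) T₂ (fun c hc => hT c (hT₂ c hc)) hrel₃ hτ hτprim hgen ha₀)
  calc Nat.card T ≤ Nat.card (T.map (entryHom 1 0)) *
        (Nat.card (T₁.map (entryHom 0 0)) * Nat.card T₂) := hsplit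
    _ ≤ (Nat.card k * (if η' τ = a₀ then (if η τ = a₀ then 1 else Nat.card k) else 1)) *
        (Nat.card k * (Nat.card k * (if η τ = a₀ then Nat.card k else 1))) :=
        Nat.mul_le_mul hfib₁ (Nat.mul_le_mul hfib₂ hfib₃)
    _ ≤ Nat.card k ^ 4 := borel_product_le Nat.card_pos _ _

/-! ### The torus case -/

/-- Coordinates of trace zero matrices. -/
def slCoord : M2 k →ₗ[k] (Fin 3 → k) where
  toFun X := ![X 0 0, X 0 1, X 1 0]
  map_add' X Y := by ext i; fin_cases i <;> simp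
  map_smul' c X := by ext i; fin_cases i <;> simp

/-- The trace zero matrix with given coordinates. -/
def slMat : (Fin 3 → k) →ₗ[k] M2 k where
  toFun x := !![x 0, x 1; x 2, -x 0]
  map_add' x y := by ext i j; fin_cases i <;> fin_cases j <;> simp [add_comm]
  map_smul' c x := by ext i j; fin_cases i <;> fin_cases j <;> simp

omit [Finite k] in
theorem slMat_slCoord {X : M2 k} (hX : X.trace = 0) : slMat (slCoord X) = X := by
  rw [Matrix.trace_fin_two] at hX
  ext i j
  fin_cases i <;> fin_cases j <;> simp [slMat, slCoord, eq_neg_of_add_eq_zero_right hX]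

omit [Finite k] in
theorem trace_slMat (x : Fin 3 → k) : (slMat x).trace = 0 := by
  simp [slMat, Matrix.trace_fin_two]

omit [Finite k] in
/-- For `p = 3` no twist of the eigenvalue `μ = l / l ^ p` reaches the top level: it would be
`-1`. -/
private theorem not_top_level_of_eq_three (hp3 : p = 3) (ι : k →+* Res p)
    (hτprim : IsPrimitiveRoot (theta p τ) (e₀ p)) {l e : k} (hl : l ^ e₀ p = 1)
    (he : e = l / l ^ p ∨ e = (l / l ^ p)⁻¹) (ha₀ : ι (l * l ^ p) = thetaBar p τ ^ (p + 1))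
    {i : ℕ} (h : ι e ^ p ^ i = thetaBar p τ ^ (p + 1)) : False := by
  subst hp3
  have hθ := isPrimitiveRoot_thetaBar 3 hτprim
  have he3 : e₀ 3 = 8 := by rw [e₀_eq]
  have hl0 : l ≠ 0 := fun h => by rw [h, zero_pow (e₀_pos 3).ne'] at hl; exact zero_ne_one hl
  set μ : k := l / l ^ 3
  have hμe : e ^ 3 ^ i = l * l ^ 3 := ι.injective (by rw [map_pow, h, ← ha₀])
  have : CharP k 3 := charP_of_algebra
  have hll : (l * l ^ 3) ^ 2 = 1 := by
    rw [show (l * l ^ 3) ^ 2 = l ^ e₀ 3 by rw [e₀]; ring, hl]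
  have he' : e = l * l ^ 3 := by
    have h6 : (l * l ^ 3) ^ 3 ^ i = l * l ^ 3 := by
      clear hμe h
      induction i with
      | zero => simp
      | succ i ih =>
        rw [pow_succ 3 i, pow_mul, ih,
          show (l * l ^ 3) ^ 3 = (l * l ^ 3) ^ 2 * (l * l ^ 3) from pow_succ _ 2, hll, one_mul]
    have h7 : (e - l * l ^ 3) ^ 3 ^ i = 0 := by rw [sub_pow_char_pow, hμe, h6, sub_self]
    exact sub_eq_zero.mp (pow_eq_zero_iff (pow_ne_zero i (by norm_num)) |>.mp h7)
  have hne : l * l ^ 3 ≠ 1 := fun h1 => by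
    rw [h1, map_one] at ha₀
    exact absurd (Nat.le_of_dvd (by norm_num) (hθ.dvd_of_pow_eq_one _ ha₀.symm)) (by omega)
  have h8 : μ = l * l ^ 3 := by
    rcases he with rfl | rfl
    · exact he'
    · rw [← inv_inv μ, he']
      exact inv_eq_of_mul_eq_one_right (by rw [← sq, hll])
  refine hne ?_
  have h10 : μ = l * l ^ 3 := h8
  simp only [μ] at h10
  rw [div_eq_iff (pow_ne_zero 3 hl0)] at h10
  have h11 : l ^ 6 = 1 := mul_left_cancel₀ hl0 (by linear_combination -h10)
  calc l * l ^ 3 = l * l ^ 3 * l ^ 6 * (l ^ 6) := by rw [h11, mul_one, mul_one]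
    _ = (l ^ e₀ 3) ^ 2 := by rw [e₀]; ring
    _ = 1 := by rw [hl, one_pow]

omit [Finite k] in
/-- Above the bottom level the twists of `1`, `l / l ^ p` and its inverse are met only at one level,
at most once for each twist. -/
private theorem sum_hitCount_le (hp2 : p ≠ 2) (ι : k →+* Res p)
    (hτprim : IsPrimitiveRoot (theta p τ) (e₀ p)) {l : k} (hl : l ^ e₀ p = 1)
    (ha₀ : ι (l * l ^ p) = thetaBar p τ ^ (p + 1)) :
    ∑ j ∈ (Finset.range (p + 1)).erase 1,
      ∑ w : Fin 3, hitCount p ι τ (![1, l / l ^ p, (l / l ^ p)⁻¹] w) (p + 1 - j) ≤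
        finrank (ZMod p) k := by
  classical
  have hl0 : l ≠ 0 := fun h => by rw [h, zero_pow (e₀_pos p).ne'] at hl; exact zero_ne_one hl
  set μ : k := l / l ^ p
  have hμ0 : μ ≠ 0 := div_ne_zero hl0 (pow_ne_zero p hl0)
  have hμ : μ ^ (p + 1) = 1 := by
    have h1 : l ^ (p * (p + 1)) = l ^ (p + 1) := by
      rw [show p * (p + 1) = e₀ p + (p + 1) by
        rw [e₀_eq]
        obtain ⟨s, hs⟩ : ∃ s, p = s + 1 := ⟨p - 1, by have := hp.out.pos; omega⟩
        rw [hs, Nat.add_sub_cancel]; ring, pow_add, hl, one_mul]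
    rw [div_pow, ← pow_mul, h1, div_self (pow_ne_zero _ hl0)]
  have hθ := isPrimitiveRoot_thetaBar p hτprim
  have hp3 : 3 ≤ p := by have := hp.out.two_le; omega
  have he2 : p + 1 < e₀ p := by
    rw [e₀_eq]
    calc p + 1 < (p + 1) * 2 := by omega
      _ ≤ (p + 1) * (p - 1) := Nat.mul_le_mul_left _ (by omega)
  -- at most one hit for every twist
  have hzero : ∀ m, 1 ≤ m → m ≤ p + 1 → hitCount p ι τ (1 : k) m = 0 := by
    intro m hm1 hm
    rw [hitCount, Finset.card_eq_zero, Finset.filter_eq_empty_iff]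
    intro i _ h
    rw [map_one, one_pow] at h
    exact absurd (Nat.le_of_dvd hm1 (hθ.dvd_of_pow_eq_one _ h.symm)) (by omega)
  have hlevel : ∀ (e : k), e = μ ∨ e = μ⁻¹ → ∀ m i, 1 ≤ m → m ≤ p + 1 → m ≠ p →
      ι e ^ p ^ i = thetaBar p τ ^ m → m = p - 1 := by
    intro e he m i hm1 hm hmp h
    have he1 : e ^ (p + 1) = 1 := by
      rcases he with rfl | rfl
      · exact hμ
      · rw [inv_pow, hμ, inv_one]
    have h2 := hθ.dvd_of_pow_eq_one (m * (p + 1)) (by
      rw [pow_mul, ← h, ← pow_mul, mul_comm, pow_mul, ← map_pow ι, he1, map_one, one_pow])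
    rw [e₀_eq, mul_comm m] at h2
    obtain ⟨t, ht⟩ := Nat.dvd_of_mul_dvd_mul_left (Nat.succ_pos p) h2
    rcases t with _ | _ | t
    · omega
    · omega
    · exfalso
      have h5 : (p - 1) * 2 ≤ (p - 1) * (t + 1 + 1) := Nat.mul_le_mul_left _ (by omega)
      have hp3' : p = 3 := by omega
      subst hp3'
      have hm4 : m = 4 := by omega
      subst hm4
      exact not_top_level_of_eq_three rfl ι hτprim hl he ha₀ h
  have hmem2 : (2 : ℕ) ∈ (Finset.range (p + 1)).erase 1 := by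
    rw [Finset.mem_erase, Finset.mem_range]; omega
  rw [Finset.sum_eq_single_of_mem 2 hmem2 fun j hj hj2 => ?_]
  · simp only [Fin.sum_univ_three, Matrix.cons_val_zero, Matrix.cons_val_one, Matrix.cons_val]
    rw [hzero _ (by omega) (by omega), zero_add, hitCount, hitCount,
      ← Finset.card_union_of_disjoint]
    · refine (Finset.card_le_card (Finset.union_subset (Finset.filter_subset _ _)
        (Finset.filter_subset _ _))).trans (Finset.card_range _).le
    · rw [Finset.disjoint_filter]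
      intro i _ h h'
      rw [map_inv₀, inv_pow, h] at h'
      have h2 : thetaBar p τ ^ (2 * (p + 1 - 2)) = 1 := by
        rw [two_mul, pow_add]
        nth_rewrite 1 [← h']
        exact inv_mul_cancel₀ (pow_ne_zero _ (hθ.ne_zero (e₀_pos p).ne'))
      have h3 := Nat.le_of_dvd (by omega) (hθ.dvd_of_pow_eq_one _ h2)
      rw [e₀_eq] at h3
      have h4 : (p + 1) * 2 ≤ (p + 1) * (p - 1) := Nat.mul_le_mul_left _ (by omega)
      omega
  · rw [Finset.mem_erase, Finset.mem_range] at hj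
    refine Finset.sum_eq_zero fun w _ => ?_
    rw [hitCount, Finset.card_eq_zero, Finset.filter_eq_empty_iff]
    intro i _ h
    fin_cases w
    · simp only [Fin.zero_eta, Matrix.cons_val_zero, map_one, one_pow] at h
      exact absurd (Nat.le_of_dvd (by omega) (hθ.dvd_of_pow_eq_one _ h.symm)) (by omega)
    · have := hlevel μ (Or.inl rfl) _ i (by omega) (by omega) (by omega) h
      omega
    · have := hlevel μ⁻¹ (Or.inr rfl) _ i (by omega) (by omega) (by omega) h
      omega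

/-- The count when tame inertia acts by `diag (λ, λ ^ p)`. -/
theorem natCard_le_torus (hp2 : p ≠ 2) {r : GQ →* M2 k}
    (hcyc : ∀ (σ : GQ) (n : ℕ), (∀ μ : QBar, μ ^ p = 1 → σ μ = μ ^ n) → (r σ).det = (n : k))
    (T : AddSubgroup (GQ → M2 k)) [Finite T] (hT : ∀ c ∈ T, IsLocalClass p r c)
    (ι : k →+* Res p) (hτ : τ ∈ inG p) (hτprim : IsPrimitiveRoot (theta p τ) (e₀ p))
    (hgen : ∀ g ∈ inG p, ∃ i : ℕ, (τ ^ i)⁻¹ * g ∈ tame p)
    (htame : ∀ g ∈ tame p, r g = 1) {l : k} (hl : l ^ e₀ p = 1)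
    (hdiag : r τ = !![l, 0; 0, l ^ p]) : Nat.card T ≤ Nat.card k ^ 4 := by
  classical
  let ρ : GQ → Module.End k (Fin 3 → k) := fun g =>
    slCoord.comp (((LinearMap.mulRight k (r g⁻¹)).comp (LinearMap.mulLeft k (r g))).comp slMat)
  have hρdef : ∀ g x, ρ g x = slCoord (r g * slMat x * r g⁻¹) := fun g x => rfl
  have htr : ∀ g (X : M2 k), X.trace = 0 → (r g * X * r g⁻¹).trace = 0 := fun g X hX => by
    rw [Matrix.trace_mul_comm, ← mul_assoc, ← map_mul, inv_mul_cancel, map_one, one_mul, hX]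
  have hρ : IsTameAction p ρ := by
    refine ⟨fun g hg => LinearMap.ext fun x => ?_, fun g _ h _ => LinearMap.ext fun x => ?_⟩
    · rw [hρdef, htame g hg, htame g⁻¹ ((tame p).inv_mem hg), one_mul, mul_one,
        Module.End.one_apply]
      ext i; fin_cases i <;> simp [slCoord, slMat]
    · rw [Module.End.mul_apply, hρdef, hρdef, hρdef,
        slMat_slCoord (htr h _ (trace_slMat x)), mul_inv_rev, map_mul r, map_mul r]
      simp only [mul_assoc]
  let f : (GQ → M2 k) →+ (GQ → Fin 3 → k) :=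
    AddMonoidHom.mk' (fun c g => slCoord (c g)) fun c c' => funext fun g => map_add slCoord _ _
  have : Finite (T.map f) :=
    Finite.of_surjective _ (AddMonoidHom.addSubgroupMap_surjective f T)
  have hinj : Function.Injective (f.addSubgroupMap T) :=
    fun c c' h => Subtype.ext (funext fun g => by
    rw [← slMat_slCoord ((hT _ c.2).trace g), ← slMat_slCoord ((hT _ c'.2).trace g)]
    exact congrArg slMat (congrFun (congrArg (fun y : T.map f => (y : GQ → Fin 3 → k)) h) g))
  have hcoc : ∀ c ∈ T.map f, IsBddCoc p ρ c := by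
    rintro _ ⟨c, hc, rfl⟩
    refine ⟨fun g hg h hh => ?_, fun g hg => ?_, ?_, ?_⟩
    · show slCoord (c (g * h)) = slCoord (c g) + ρ g (slCoord (c h))
      rw [hρdef, slMat_slCoord ((hT c hc).trace h), (hT c hc).add g hg h hh, map_add, add_comm]
    · show slCoord (c g) = 0
      rw [(hT c hc).off g hg, map_zero]
    · obtain ⟨H, h1, h2, h3, h4⟩ := (hT c hc).bdd
      exact ⟨H, h1, h2, h3, fun h hh => by show slCoord (c h) = 0; rw [h4 h hh, map_zero]⟩
    · obtain ⟨L', h1, h2, h3⟩ := (hT c hc).level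
      exact ⟨L', h1, h2, fun g hg hgD => by show slCoord (c g) = 0; rw [h3 g hg hgD, map_zero]⟩
  -- eigenvalues
  have hl0 : l ≠ 0 := fun h => by rw [h, zero_pow (e₀_pos p).ne'] at hl; exact zero_ne_one hl
  set μ : k := l / l ^ p
  have hinv : r τ⁻¹ = !![l⁻¹, 0; 0, (l ^ p)⁻¹] := by
    calc r τ⁻¹ = r τ⁻¹ * (r τ * !![l⁻¹, 0; 0, (l ^ p)⁻¹]) := by
          rw [hdiag]
          have : !![l, 0; 0, l ^ p] * !![l⁻¹, 0; 0, (l ^ p)⁻¹] = (1 : M2 k) := by
            ext i j; fin_cases i <;> fin_cases j <;>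
              simp [Matrix.mul_apply, Fin.sum_univ_two, hl0]
          rw [this, mul_one]
      _ = _ := by rw [← mul_assoc, ← map_mul, inv_mul_cancel, map_one, one_mul]
  have hB : ∀ w, ρ τ (Pi.basisFun k (Fin 3) w) = (![1, μ, μ⁻¹] w) • Pi.basisFun k (Fin 3) w := by
    intro w
    rw [hρdef, hdiag, hinv, Pi.basisFun_apply]
    ext i
    fin_cases w <;> fin_cases i <;>
      simp [slCoord, slMat, μ] <;>
      field_simp
  have ha₀ : ι (l * l ^ p) = thetaBar p τ ^ (p + 1) := by
    rw [← iota_det hcyc ι hτ, hdiag, Matrix.det_fin_two]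
    simp
  refine (Nat.card_le_card_of_injective _ hinj).trans ?_
  refine (natCard_le_of_isBddCoc hρ (T.map f) hcoc ι hτ hτprim hgen hB).trans ?_
  rw [Nat.card_fun, Nat.card_fin, natCard_k (p := p), ← pow_mul, ← pow_add, ← pow_mul]
  refine Nat.pow_le_pow_right hp.out.pos ?_
  have hp3 : 3 ≤ p := by have := hp.out.two_le; omega
  have h : ∑ j ∈ (Finset.range (p + 1)).erase 1,
      ∑ w : Fin 3, hitCount p ι τ (![1, μ, μ⁻¹] w) (p + 1 - j) ≤ finrank (ZMod p) k :=
    sum_hitCount_le hp2 ι hτprim hl ha₀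
  omega

end Fermat.Agent.CFT.Flat
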