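import Fermat.Agent.CFT.Flat.Fontaine

/-!
# The ramification bound passes to subextensions
-/

set_option autoImplicit false

noncomputable section

namespace Fermat.Agent.CFT.Flat

open Fermat.Agent.Arith Fermat.Agent.FiniteFlat Polynomial

variable {p : ℕ} [hp : Fact p.Prime]

theorem IsUnif.exists_mem_of_orb {H : Subgroup GQ} {π : QBar} (u : IsUnif (p := p) H π) {g : GQ}
    (hg : g ∈ inG p) (h : g π = π) : g ∈ H := by
  rw [← u.fixer_eq]
  exact (mem_fixer p).mpr ⟨hg, h⟩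

/-- The distances from `π` to a translate of a `K`-stable fibre multiply to at most the distance
of `ϖ` to its translate. -/
private theorem prod_fibre_le {J K : Subgroup GQ} {π ϖ : QBar} (u : IsUnif (p := p) J π)
    (v : IsUnif (p := p) K ϖ) {F : Finset QBar} (hπF : π ∈ F) (hFS : F ⊆ orb p π)
    (hKF : ∀ k ∈ K, F.image k = F) {g : GQ} (hg : g ∈ inG p) (hgne : g ϖ ≠ ϖ) :
    ∏ r ∈ F, nrm p (π - g r) ≤ nrm p (ϖ - g ϖ) := by
  classical
  -- the polynomial of a fibre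
  set Q : QBar[X] := ∏ r ∈ F, (X - C r)
  have hπ1 : nrm p π ≤ 1 := u.lt_one.le
  have hcoef : ∀ i, (∀ k ∈ K, k (Q.coeff i) = Q.coeff i) ∧ nrm p (Q.coeff i) ≤ 1 := by
    intro i
    refine ⟨fun k hk => ?_, ?_⟩
    · have hmap : Q.map (k : QBar →+* QBar) = Q := by
        conv_rhs => rw [show Q = ∏ r ∈ F.image k, (X - C r) by rw [hKF k hk]]
        rw [Finset.prod_image fun a _ b _ h => k.injective h, Polynomial.map_prod]
        simp only [Polynomial.map_sub, map_X, map_C]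
        rfl
      conv_rhs => rw [← hmap]
      rw [coeff_map]
      rfl
    · rcases lt_trichotomy i F.card with h | h | h
      · exact (nrm_coeff_prod_X_sub_C
          (fun r hr => (nrm_of_mem_orb (hFS hr)).trans_lt u.lt_one) i h).le
      · have hd : Q.natDegree = F.card := by
          rw [natDegree_prod_of_monic _ _ fun r _ => monic_X_sub_C r]; simp
        rw [h, ← hd, (monic_prod_of_monic _ _ fun r _ => monic_X_sub_C r : Q.Monic).coeff_natDegree,
          nrm_one]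
      · rw [coeff_eq_zero_of_natDegree_lt (by
          rw [natDegree_prod_of_monic _ _ fun r _ => monic_X_sub_C r]; simpa using h), nrm_zero]
        exact zero_le_one
  set d := nrm p (ϖ - g ϖ)
  have hd0 : 0 < d := nrm_pos p (sub_ne_zero.mpr hgne.symm)
  have hsub : ∀ i, nrm p (g (Q.coeff i) - Q.coeff i) ≤ d := fun i => by
    obtain ⟨P, hP⟩ := v.exists_approx (hcoef i).1 (hcoef i).2 hd0
    rw [show g (Q.coeff i) - Q.coeff i = g (Q.coeff i - aeval ϖ P) +
        ((aeval (g ϖ) P - aeval ϖ P) - (Q.coeff i - aeval ϖ P)) by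
      rw [map_sub, map_aeval_intI hg]; ring]
    refine nrm_add_le_of_le p ((nrm_map_of_mem_inG p hg _).trans_le hP)
      (nrm_sub_le_of_le p ?_ hP)
    refine (nrm_aeval_sub_le P ?_ v.lt_one.le).trans (nrm_sub_comm p _ _).le
    rw [nrm_map_of_mem_inG p hg]; exact v.lt_one.le
  have heval : ∏ r ∈ F, (π - g r) = (Q.map (g : QBar →+* QBar)).eval π := by
    rw [Polynomial.map_prod, eval_prod]
    exact Finset.prod_congr rfl fun r _ => by simp
  have hQ0 : Q.eval π = 0 := by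
    rw [eval_prod]; exact Finset.prod_eq_zero hπF (by simp)
  rw [← nrm_prod, heval, ← sub_zero ((Q.map _).eval π), ← hQ0,
    eval_eq_sum_range' (n := Q.natDegree + 1) (by
      rw [natDegree_map]; omega),
    eval_eq_sum_range' (n := Q.natDegree + 1) (Nat.lt_succ_self _), ← Finset.sum_sub_distrib]
  refine nrm_sum_le p _ _ hd0.le fun i _ => ?_
  rw [← sub_mul, coeff_map, nrm_mul, Flat.nrm_pow]
  exact (mul_le_of_le_one_right (nrm_nonneg p _) (pow_le_one₀ (nrm_nonneg p π) hπ1)).trans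
    (hsub i)

open Classical in
/-- The translates of `π` by `K` inside its orbit are stable under `K`. -/
private theorem image_fibre {K : Subgroup GQ} (hKI : K ≤ inG p) (π : QBar) {k : GQ} (hk : k ∈ K) :
    ((orb p π).filter fun r => ∃ k ∈ K, k π = r).image k =
      (orb p π).filter fun r => ∃ k ∈ K, k π = r := by
  ext r
  simp only [Finset.mem_image, Finset.mem_filter]
  constructor
  · rintro ⟨r', ⟨hr', k', hk', rfl⟩, rfl⟩
    exact ⟨map_mem_orb hr' (hKI hk), k * k', K.mul_mem hk hk', rfl⟩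
  · rintro ⟨hr, k', hk', rfl⟩
    refine ⟨(k⁻¹ * k') π, ⟨mem_orb.mpr ⟨_, hKI (K.mul_mem (K.inv_mem hk) hk'), rfl⟩, _,
      K.mul_mem (K.inv_mem hk) hk', rfl⟩, ?_⟩
    rw [← AlgEquiv.mul_apply, mul_inv_cancel_left]

/-- Inertia elements carrying `ϖ` to each point of its orbit, the identity at `ϖ`. -/
private theorem exists_coset_reps (ϖ : QBar) :
    ∃ c : QBar → GQ, (∀ t, c t ∈ inG p) ∧ (∀ t ∈ orb p ϖ, c t ϖ = t) ∧ c ϖ = 1 := by
  classical
  have hc : ∀ t : QBar, ∃ g ∈ inG p, (t ∈ orb p ϖ → g ϖ = t) ∧ (t = ϖ → g = 1) := fun t => by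
    by_cases ht : t ∈ orb p ϖ
    · by_cases h1 : t = ϖ
      · exact ⟨1, one_mem _, fun _ => h1.symm, fun _ => rfl⟩
      · obtain ⟨g, hg, rfl⟩ := mem_orb.mp ht
        exact ⟨g, hg, fun _ => rfl, fun h => absurd h h1⟩
    · exact ⟨1, one_mem _, fun h => absurd h ht, fun _ => rfl⟩
  choose c hcI hcT hc1 using hc
  exact ⟨c, hcI, hcT, hc1 ϖ rfl⟩

open Classical in
/-- The translates of the fibre over `ϖ` cover the orbit of `π`. -/
private theorem orb_eq_biUnion_fibre {K : Subgroup GQ} {π ϖ : QBar} (v : IsUnif (p := p) K ϖ)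
    {c : QBar → GQ} (hcI : ∀ t, c t ∈ inG p) (hcT : ∀ t ∈ orb p ϖ, c t ϖ = t) :
    orb p π = (orb p ϖ).biUnion fun t =>
      ((orb p π).filter fun r => ∃ k ∈ K, k π = r).image (c t) := by
  ext r
  simp only [Finset.mem_biUnion, Finset.mem_image]
  constructor
  · intro hr
    obtain ⟨g, hg, rfl⟩ := mem_orb.mp hr
    have ht : g ϖ ∈ orb p ϖ := mem_orb.mpr ⟨g, hg, rfl⟩
    refine ⟨g ϖ, ht, ((c (g ϖ))⁻¹ * g) π, Finset.mem_filter.mpr ⟨mem_orb.mpr ⟨_,
      (inG p).mul_mem ((inG p).inv_mem (hcI _)) hg, rfl⟩, _, v.exists_mem_of_orb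
      ((inG p).mul_mem ((inG p).inv_mem (hcI _)) hg) ?_, rfl⟩, ?_⟩
    · conv_lhs => rw [AlgEquiv.mul_apply]
      conv_lhs => arg 2; rw [← hcT _ ht]
      rw [← AlgEquiv.mul_apply, inv_mul_cancel, AlgEquiv.one_apply]
    · rw [← AlgEquiv.mul_apply, mul_inv_cancel_left]
  · rintro ⟨t, -, r', hr', rfl⟩
    exact map_mem_orb (Finset.mem_filter.mp hr').1 (hcI t)

open Classical in
/-- The translates of the fibre over distinct points are disjoint. -/
private theorem disjoint_fibre {J K : Subgroup GQ} {π ϖ : QBar} (u : IsUnif (p := p) J π)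
    (v : IsUnif (p := p) K ϖ) (hJK : J ≤ K) {c : QBar → GQ} (hcI : ∀ t, c t ∈ inG p)
    (hcT : ∀ t ∈ orb p ϖ, c t ϖ = t) {t t' : QBar} (ht : t ∈ orb p ϖ) (ht' : t' ∈ orb p ϖ)
    (hne : t ≠ t') :
    Disjoint (((orb p π).filter fun r => ∃ k ∈ K, k π = r).image (c t))
      (((orb p π).filter fun r => ∃ k ∈ K, k π = r).image (c t')) := by
  have hKI := v.level.le
  rw [Finset.disjoint_left]
  intro r hr hr'
  obtain ⟨r₁, hr₁, rfl⟩ := Finset.mem_image.mp hr
  obtain ⟨r₂, hr₂, he⟩ := Finset.mem_image.mp hr'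
  obtain ⟨-, k, hk, rfl⟩ := Finset.mem_filter.mp hr₁
  obtain ⟨-, k', hk', rfl⟩ := Finset.mem_filter.mp hr₂
  apply hne
  set g := k'⁻¹ * ((c t')⁻¹ * (c t * k)) with hg
  have hgI : g ∈ inG p := (inG p).mul_mem ((inG p).inv_mem (hKI hk'))
    ((inG p).mul_mem ((inG p).inv_mem (hcI t')) ((inG p).mul_mem (hcI t) (hKI hk)))
  have hgK : g ∈ K := hJK (u.exists_mem_of_orb hgI (by
    rw [hg, AlgEquiv.mul_apply, AlgEquiv.mul_apply, AlgEquiv.mul_apply, ← he,
      ← AlgEquiv.mul_apply (c t')⁻¹, inv_mul_cancel, AlgEquiv.one_apply,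
      ← AlgEquiv.mul_apply, inv_mul_cancel, AlgEquiv.one_apply]))
  have hK' : (c t')⁻¹ * c t ∈ K := by
    have := K.mul_mem (K.mul_mem hk' hgK) (K.inv_mem hk)
    rwa [show k' * g * k⁻¹ = (c t')⁻¹ * c t by rw [hg]; group] at this
  have hfix := v.fixed _ hK'
  rw [AlgEquiv.mul_apply, hcT t ht] at hfix
  have := congrArg (c t') hfix
  rw [← AlgEquiv.mul_apply, mul_inv_cancel, AlgEquiv.one_apply, hcT t' ht'] at this
  exact this

/-- The fibre over `ϖ` gives at most the gap of `ϖ`. -/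
private theorem prod_fibre_erase_mul_gap_le {J K : Subgroup GQ} {π ϖ : QBar}
    (u : IsUnif (p := p) J π) (v : IsUnif (p := p) K ϖ) (hJK : J ≤ K)
    (hne : ((orb p ϖ).erase ϖ).Nonempty) {F : Finset QBar} (hπF : π ∈ F) (hFS : F ⊆ orb p π)
    (hKF : ∀ k ∈ K, F.image k = F) (hF : ∀ r ∈ F, ∃ k ∈ K, k π = r) :
    (∏ r ∈ F.erase π, nrm p (π - r)) * gap p π ≤ gap p ϖ := by
  classical
  obtain ⟨t₀, ht₀, hgapK⟩ := exists_gap_eq hne
  obtain ⟨ht₀ne, ht₀T⟩ := Finset.mem_erase.mp ht₀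
  obtain ⟨g, hg, hgϖ⟩ := mem_orb.mp ht₀T
  obtain ⟨r₀, hr₀, hmin⟩ := F.exists_min_image (fun r => nrm p (π - g r)) ⟨π, hπF⟩
  obtain ⟨k₀, hk₀, hk₀r⟩ := hF r₀ hr₀
  set g₀ := g * k₀ with hg₀def
  have hg₀ : g₀ ∈ inG p := (inG p).mul_mem hg (v.level.le hk₀)
  have hg₀ϖ : g₀ ϖ = t₀ := by rw [AlgEquiv.mul_apply, v.fixed k₀ hk₀, hgϖ]
  have hmin' : ∀ r ∈ F, nrm p (π - g₀ π) ≤ nrm p (π - g₀ r) := fun r hr => by
    rw [hg₀def, AlgEquiv.mul_apply, AlgEquiv.mul_apply, hk₀r]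
    exact hmin _ (by rw [← hKF k₀ hk₀]; exact Finset.mem_image_of_mem _ hr)
  have hJne : g₀ π ∈ (orb p π).erase π := by
    refine Finset.mem_erase.mpr ⟨fun h => ?_, mem_orb.mpr ⟨g₀, hg₀, rfl⟩⟩
    exact ht₀ne (hg₀ϖ ▸ v.fixed g₀ (hJK (u.exists_mem_of_orb hg₀ h)))
  rw [hgapK, ← hg₀ϖ]
  refine le_trans ?_ (prod_fibre_le u v hπF hFS hKF hg₀ (by rw [hg₀ϖ]; exact ht₀ne))
  rw [← Finset.mul_prod_erase _ _ hπF, mul_comm]
  refine mul_le_mul (gap_le hJne) (Finset.prod_le_prod (fun r _ => nrm_nonneg p _)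
    fun r hr => ?_) (Finset.prod_nonneg fun r _ => nrm_nonneg p _) (nrm_nonneg p _)
  rw [← nrm_map_of_mem_inG p hg₀ (π - r), map_sub, ← sub_sub_sub_cancel_left (g₀ r) (g₀ π) π]
  exact (nrm_sub_le p _ _).trans (max_le le_rfl (hmin' r (Finset.mem_erase.mp hr).2))

/-- A product over a disjoint union with one point removed. -/
private theorem prod_erase_biUnion {α β M : Type*} [DecidableEq α] [DecidableEq β] [CommMonoid M]
    (f : α → M) {T : Finset β} {G : β → Finset α} {x : α} {y : β} (hy : y ∈ T) (hx : x ∈ G y)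
    (hd : ∀ t ∈ T, ∀ t' ∈ T, t ≠ t' → Disjoint (G t) (G t')) :
    ∏ r ∈ (T.biUnion G).erase x, f r =
      (∏ r ∈ (G y).erase x, f r) * ∏ t ∈ T.erase y, ∏ r ∈ G t, f r := by
  have h : (T.biUnion G).erase x = (G y).erase x ∪ (T.erase y).biUnion G := by
    conv_lhs => rw [← Finset.insert_erase hy]
    rw [Finset.biUnion_insert, Finset.erase_union_distrib]
    congr 1
    refine Finset.erase_eq_of_notMem fun h => ?_
    obtain ⟨t, ht, h'⟩ := Finset.mem_biUnion.mp h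
    exact Finset.disjoint_left.mp
      (hd t (Finset.mem_erase.mp ht).2 y hy (Finset.mem_erase.mp ht).1) h' hx
  rw [h, Finset.prod_union, Finset.prod_biUnion]
  · exact fun t ht t' ht' h => hd t (Finset.mem_erase.mp ht).2 t' (Finset.mem_erase.mp ht').2 h
  · rw [Finset.disjoint_biUnion_right]
    exact fun t ht => Finset.disjoint_of_subset_left (Finset.erase_subset _ _)
      (hd y hy t (Finset.mem_erase.mp ht).2 (Finset.mem_erase.mp ht).1.symm)

theorem brk_le {J K : Subgroup GQ} {π ϖ : QBar} (u : IsUnif (p := p) J π)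
    (v : IsUnif (p := p) K ϖ) (hJK : J ≤ K) (hne : ((orb p ϖ).erase ϖ).Nonempty) :
    brk p π ≤ brk p ϖ := by
  classical
  set T := orb p ϖ
  set F := (orb p π).filter fun r => ∃ k ∈ K, k π = r
  have hπF : π ∈ F := Finset.mem_filter.mpr ⟨self_mem_orb π, 1, one_mem _, rfl⟩
  have hKF : ∀ k ∈ K, F.image k = F := fun k hk => image_fibre v.level.le π hk
  have hFS : F ⊆ orb p π := Finset.filter_subset _ _
  obtain ⟨c, hcI, hcT, hc1⟩ := exists_coset_reps (p := p) ϖ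
  have hc1' : F.image (c ϖ) = F := by rw [hc1]; exact Finset.image_id
  have hfirst : (∏ r ∈ F.erase π, nrm p (π - r)) * gap p π ≤ gap p ϖ :=
    prod_fibre_erase_mul_gap_le u v hJK hne hπF hFS hKF fun r hr => (Finset.mem_filter.mp hr).2
  have hrest : ∀ t ∈ T.erase ϖ, ∏ r ∈ F.image (c t), nrm p (π - r) ≤ nrm p (ϖ - t) := by
    intro t ht
    rw [Finset.prod_image fun a _ b _ h => (c t).injective h]
    refine (prod_fibre_le u v hπF hFS hKF (hcI t) ?_).trans_eq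
      (by rw [hcT t (Finset.mem_erase.mp ht).2])
    rw [hcT t (Finset.mem_erase.mp ht).2]
    exact (Finset.mem_erase.mp ht).1
  have hsplit : ∏ r ∈ (orb p π).erase π, nrm p (π - r) = (∏ r ∈ F.erase π, nrm p (π - r)) *
      ∏ t ∈ T.erase ϖ, ∏ r ∈ F.image (c t), nrm p (π - r) := by
    rw [orb_eq_biUnion_fibre v hcI hcT, prod_erase_biUnion _ (self_mem_orb ϖ)
      (show π ∈ F.image (c ϖ) by rwa [hc1'])
      fun t ht t' ht' h => disjoint_fibre u v hJK hcI hcT ht ht' h, hc1']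
  rw [brk, brk, hsplit]
  calc _ = ((∏ r ∈ F.erase π, nrm p (π - r)) * gap p π) *
        ∏ t ∈ T.erase ϖ, ∏ r ∈ F.image (c t), nrm p (π - r) := by ring
    _ ≤ gap p ϖ * ∏ t ∈ T.erase ϖ, nrm p (ϖ - t) :=
      mul_le_mul hfirst (Finset.prod_le_prod
        (fun t _ => Finset.prod_nonneg fun r _ => nrm_nonneg p _) hrest)
        (Finset.prod_nonneg fun t _ => Finset.prod_nonneg fun r _ => nrm_nonneg p _)
        (by obtain ⟨t, _, h⟩ := exists_gap_eq hne; rw [h]; exact nrm_nonneg p _)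
    _ = _ := mul_comm _ _

theorem IsUnif.nrm_le {J K : Subgroup GQ} {π ϖ : QBar} (u : IsUnif (p := p) J π)
    (v : IsUnif (p := p) K ϖ) (hJK : J ≤ K) : nrm p ϖ ≤ nrm p π := by
  have := u.nrm_le_of_lt (k := 0) (fun g hg => v.fixed g (hJK hg)) (by
    rw [pow_zero]; exact v.lt_one)
  rwa [zero_add, pow_one] at this

/-- The ramification bound for a subextension. -/
theorem fontaine_sub {M : Type} [AddCommGroup M] [DistribMulAction GQ M] [Fintype M]
    (O : GalOrder p M) (hkill : ∀ m : M, p • m = 0) {e : ℕ} (he : 0 < e) (hpe : ¬ p ∣ e)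
    {π₀ : QBar} (hπ₀ : π₀ ^ e = (p : QBar)) {K : Subgroup GQ}
    (hK : fixM p M ⊓ fixer p π₀ ≤ K) {ϖ : QBar} (v : IsUnif (p := p) K ϖ)
    (hne : ((orb p ϖ).erase ϖ).Nonempty) :
    ¬ ((p : ℝ) * (brk p ϖ / nrm p ϖ)) ^ (p - 1) < (p : ℝ)⁻¹ := by
  classical
  obtain ⟨π, u⟩ := ((isLevel_fixM O).inf (isLevel_fixer (p := p) π₀)).exists_unif
  intro hlt
  have hneπ : ((orb p π).erase π).Nonempty := by
    obtain ⟨t, ht⟩ := hne
    obtain ⟨htne, htT⟩ := Finset.mem_erase.mp ht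
    obtain ⟨g, hg, rfl⟩ := mem_orb.mp htT
    exact ⟨g π, Finset.mem_erase.mpr ⟨fun h => htne (v.fixed g (hK (u.exists_mem_of_orb hg h))),
      mem_orb.mpr ⟨g, hg, rfl⟩⟩⟩
  refine fontaine O hkill he hpe hπ₀ u hneπ (lt_of_le_of_lt ?_ hlt)
  refine pow_le_pow_left₀ (mul_nonneg (Nat.cast_nonneg p)
    (div_nonneg (brk_pos hneπ).le u.pos.le)) (mul_le_mul_of_nonneg_left ?_ (Nat.cast_nonneg p)) _
  exact div_le_div₀ (brk_pos hne).le (brk_le u v hK hne) v.pos (u.nrm_le v hK)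

end Fermat.Agent.CFT.Flat
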